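import Mathlib

/-!
# S59 / cell TW, layer 3 (AUT), leaf CTRL, piece (5) COR — abstract part (helper762)

Mathlib only.  `G` a finite group acting `𝒪`-linearly on `X` (`δ g`, `δ g ∘ δ h = δ (g * h)`),
`V ⊆ X` a submodule with an "`𝒪[G]`-basis" `b` in the sense that every `y ∈ V` is uniquely
`∑ i, ∑ g, c i g • δ g (b i)`.

* `ker_norm_h762`  : `∑ g, δ g y = 0 → y ∈ I_G V` (the additive closure of the `δ g y' - y'`);
* `inv_norm_h762`  : `(∀ g, δ g y = y) → y = ∑ g, δ g z` for some `z ∈ V`;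
* `basis_transport_h762` : the same hypothesis with the group elements enumerated by a bijection
  `ε : E → G`;
* `cor_ctrl_abs_h762` : control.  `cor : X → Y`, `res : Y → X` with `res ∘ cor = ∑ g, δ g`,
  `cor ∘ res = |G|`, `cor ∘ δ g = cor`, `δ g ∘ res = res`, `Y` without `|G|`-torsion,
  `cor V ⊆ W`, `res W ⊆ V`.  Then `cor V = W` and `ker (cor | V) = I_G V`.
-/

set_option autoImplicit false

namespace Fermat.Agent.S59.TW.Aut.H762

section Free

variable {𝒪 : Type*} [CommRing 𝒪] {X : Type*} [AddCommGroup X] [Module 𝒪 X]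
  {G : Type*} [Group G] [Fintype G]
  (δ : G → X →ₗ[𝒪] X) (hδ : ∀ g h x, δ g (δ h x) = δ (g * h) x)
  (V : Submodule 𝒪 X) {d : ℕ} (b : Fin d → X) (hbV : ∀ i, b i ∈ V)
  (hb : ∀ y ∈ V, ∃! c : Fin d → G → 𝒪, y = ∑ i, ∑ g, c i g • δ g (b i))

include hδ in
/-- The norm of a combination. -/
theorem norm_comb_h762 (c : Fin d → G → 𝒪) :
    ∑ h, δ h (∑ i, ∑ g, c i g • δ g (b i)) = ∑ i, ∑ g, (∑ g', c i g') • δ g (b i) := by
  simp only [map_sum, map_smul, hδ]
  rw [Finset.sum_comm]
  refine Finset.sum_congr rfl fun i _ => ?_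
  rw [Finset.sum_comm]
  have h1 : ∀ g : G, ∑ h, c i g • δ (h * g) (b i) = c i g • ∑ h, δ h (b i) := by
    intro g
    rw [Finset.smul_sum]
    exact Equiv.sum_comp (Equiv.mulRight g) (fun h => c i g • δ h (b i))
  rw [Finset.sum_congr rfl fun g _ => h1 g, ← Finset.sum_smul, Finset.smul_sum]

include hδ hbV hb in
/-- **`ker N = I_G V`** for a free `𝒪[G]`-module `V`. -/
theorem ker_norm_h762 {y : X} (hy : y ∈ V) (hN : ∑ g, δ g y = 0) :
    y ∈ AddSubgroup.closure {z : X | ∃ (g : G) (y' : X), y' ∈ V ∧ z = δ g y' - y'} := by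
  obtain ⟨c, hc, -⟩ := hb y hy
  have h1 := norm_comb_h762 δ hδ b c
  rw [← hc, hN] at h1
  -- uniqueness for `0`
  obtain ⟨c0, -, hc0⟩ := hb 0 V.zero_mem
  have e1 : (fun (i : Fin d) (_ : G) => ∑ g', c i g') = c0 := hc0 _ h1
  have e2 : (fun (_ : Fin d) (_ : G) => (0 : 𝒪)) = c0 := by
    apply hc0
    simp
  have hC : ∀ i, ∑ g', c i g' = 0 := by
    intro i
    have := congrFun (congrFun (e1.trans e2.symm) i) 1
    exact this
  have h2 : y = ∑ i, ∑ g, (δ g (c i g • b i) - c i g • b i) := by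
    simp only [Finset.sum_sub_distrib, map_smul]
    rw [← hc]
    have : ∑ i, ∑ g, c i g • b i = 0 := by
      refine Finset.sum_eq_zero fun i _ => ?_
      rw [← Finset.sum_smul, hC i, zero_smul]
    rw [this, sub_zero]
  rw [h2]
  refine AddSubgroup.sum_mem _ fun i _ => AddSubgroup.sum_mem _ fun g _ => ?_
  exact AddSubgroup.subset_closure ⟨g, c i g • b i, V.smul_mem _ (hbV i), rfl⟩

include hδ hbV hb in
/-- **`V^G = N V`** for a free `𝒪[G]`-module `V`. -/
theorem inv_norm_h762 {y : X} (hy : y ∈ V) (hinv : ∀ g, δ g y = y) :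
    ∃ z ∈ V, y = ∑ g, δ g z := by
  obtain ⟨c, hc, huniq⟩ := hb y hy
  -- the coefficients are constant in `g`
  have hconst : ∀ (h : G) (i : Fin d) (g : G), c i (h⁻¹ * g) = c i g := by
    intro h
    have h1 : y = ∑ i, ∑ g, c i (h⁻¹ * g) • δ g (b i) := by
      have h2 : δ h y = ∑ i, ∑ g, c i g • δ (h * g) (b i) := by
        conv_lhs => rw [hc]
        simp only [map_sum, map_smul, hδ]
      rw [hinv h] at h2
      rw [h2]
      refine Finset.sum_congr rfl fun i _ => ?_
      rw [← Equiv.sum_comp (Equiv.mulLeft h) (fun g => c i (h⁻¹ * g) • δ g (b i))]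
      refine Finset.sum_congr rfl fun g _ => ?_
      simp
    have h3 := huniq _ h1
    intro i g
    exact congrFun (congrFun h3 i) g
  have hc1 : ∀ i g, c i g = c i 1 := by
    intro i g
    have := hconst g i g
    rw [inv_mul_cancel] at this
    exact this.symm
  refine ⟨∑ i, c i 1 • b i, V.sum_mem fun i _ => V.smul_mem _ (hbV i), ?_⟩
  conv_lhs => rw [hc]
  simp only [map_sum, map_smul]
  rw [Finset.sum_comm]
  refine Finset.sum_congr rfl fun g _ => Finset.sum_congr rfl fun i _ => ?_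
  rw [hc1 i g]

end Free

section Transport

variable {𝒪 : Type*} [CommRing 𝒪] {X : Type*} [AddCommGroup X] [Module 𝒪 X]
  {G : Type*} [Fintype G] {E : Type*} [Fintype E]

/-- Transport of the basis property along a bijection `ε : E → G`. -/
theorem basis_transport_h762 (δ : G → X →ₗ[𝒪] X) (ε : E → G) (hε : Function.Bijective ε)
    {d : ℕ} (b : Fin d → X) {y : X}
    (h : ∃! c : Fin d → E → 𝒪, y = ∑ i, ∑ e, c i e • δ (ε e) (b i)) :
    ∃! c : Fin d → G → 𝒪, y = ∑ i, ∑ g, c i g • δ g (b i) := by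
  let εe : E ≃ G := Equiv.ofBijective ε hε
  have key : ∀ c : Fin d → G → 𝒪, ∑ i, ∑ g, c i g • δ g (b i) =
      ∑ i, ∑ e, c i (ε e) • δ (ε e) (b i) := by
    intro c
    refine Finset.sum_congr rfl fun i _ => ?_
    exact (Equiv.sum_comp εe (fun g => c i g • δ g (b i))).symm
  obtain ⟨c, hc, huniq⟩ := h
  refine ⟨fun i g => c i (εe.symm g), ?_, ?_⟩
  · show y = ∑ i, ∑ g, c i (εe.symm g) • δ g (b i)
    rw [key]
    rw [hc]
    refine Finset.sum_congr rfl fun i _ => Finset.sum_congr rfl fun e _ => ?_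
    have : εe.symm (ε e) = e := εe.symm_apply_apply e
    rw [this]
  · intro c' hc'
    rw [key] at hc'
    have h1 := huniq (fun i e => c' i (ε e)) hc'
    funext i g
    have h2 := congrFun (congrFun h1 i) (εe.symm g)
    have h3 : ε (εe.symm g) = g := εe.apply_symm_apply g
    simp only [h3] at h2
    exact h2

end Transport

section Control

variable {X : Type*} [AddCommGroup X] {Y : Type*} [AddCommGroup Y]
  {G : Type*} [Fintype G]
  (δ : G → X → X) (cor : X →+ Y) (res : Y →+ X)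
  (h1 : ∀ x, res (cor x) = ∑ g, δ g x)
  (h2 : ∀ y, cor (res y) = Fintype.card G • y)
  (h3 : ∀ g x, cor (δ g x) = cor x)
  (h4 : ∀ g y, δ g (res y) = res y)
  (htf : ∀ y : Y, Fintype.card G • y = 0 → y = 0)
  (V : AddSubgroup X) (W : AddSubgroup Y)
  (hresW : ∀ y ∈ W, res y ∈ V)
  (hker : ∀ y ∈ V, ∑ g, δ g y = 0 →
    y ∈ AddSubgroup.closure {z : X | ∃ (g : G) (y' : X), y' ∈ V ∧ z = δ g y' - y'})
  (hinv : ∀ y ∈ V, (∀ g, δ g y = y) → ∃ z ∈ V, y = ∑ g, δ g z)

include h1 h2 h4 htf hresW hinv in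
/-- **Control, surjectivity**: `W ⊆ cor V`. -/
theorem cor_surj_abs_h762 {w : Y} (hw : w ∈ W) : ∃ v ∈ V, cor v = w := by
  obtain ⟨z, hz, hzw⟩ := hinv (res w) (hresW w hw) (fun g => h4 g w)
  refine ⟨z, hz, ?_⟩
  rw [← h1 z] at hzw
  have h5 : cor (res w) = cor (res (cor z)) := congrArg cor hzw
  rw [h2, h2] at h5
  have h6 : Fintype.card G • (cor z - w) = 0 := by
    rw [smul_sub, h5, sub_self]
  exact sub_eq_zero.mp (htf _ h6)

include h1 h3 hker in
/-- **Control, kernel**: `ker (cor | V) = I_G V`. -/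
theorem cor_ker_abs_h762 {v : X} (hv : v ∈ V) :
    cor v = 0 ↔
      v ∈ AddSubgroup.closure {z : X | ∃ (g : G) (y' : X), y' ∈ V ∧ z = δ g y' - y'} := by
  constructor
  · intro h
    apply hker v hv
    rw [← h1, h, map_zero]
  · intro h
    clear hv
    induction h using AddSubgroup.closure_induction with
    | mem z hz =>
      obtain ⟨g, y', -, rfl⟩ := hz
      rw [map_sub, h3, sub_self]
    | zero => exact map_zero _
    | add a b _ _ ha hb => rw [map_add, ha, hb, add_zero]
    | neg a _ ha => rw [map_neg, ha, neg_zero]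

end Control

section Closure

variable {𝒪 : Type*} [Ring 𝒪] {X : Type*} [AddCommGroup X] [Module 𝒪 X]

/-- The additive closure of a subset of a submodule `V`, computed in `V` or in the ambient
module. -/
theorem closure_subtype_iff_h762 (V : Submodule 𝒪 X) (S : Set X) (hS : ∀ x ∈ S, x ∈ V) (y : V) :
    (y : X) ∈ AddSubgroup.closure S ↔ y ∈ AddSubgroup.closure {z : V | (z : X) ∈ S} := by
  constructor
  · intro h
    have key : ∀ x ∈ AddSubgroup.closure S,
        ∃ hx : x ∈ V, (⟨x, hx⟩ : V) ∈ AddSubgroup.closure {z : V | (z : X) ∈ S} := by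
      intro x hx
      induction hx using AddSubgroup.closure_induction with
      | mem z hz => exact ⟨hS z hz, AddSubgroup.subset_closure hz⟩
      | zero => exact ⟨V.zero_mem, AddSubgroup.zero_mem _⟩
      | add a b _ _ ha hb =>
        obtain ⟨ha1, ha2⟩ := ha
        obtain ⟨hb1, hb2⟩ := hb
        exact ⟨V.add_mem ha1 hb1, AddSubgroup.add_mem _ ha2 hb2⟩
      | neg a _ ha =>
        obtain ⟨ha1, ha2⟩ := ha
        exact ⟨V.neg_mem ha1, AddSubgroup.neg_mem _ ha2⟩
    obtain ⟨_, h2⟩ := key y h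
    exact h2
  · intro h
    induction h using AddSubgroup.closure_induction with
    | mem z hz => exact AddSubgroup.subset_closure hz
    | zero => exact AddSubgroup.zero_mem _
    | add a b _ _ ha hb => exact AddSubgroup.add_mem _ ha hb
    | neg a _ ha => exact AddSubgroup.neg_mem _ ha

end Closure

end Fermat.Agent.S59.TW.Aut.H762
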