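import Fermat.Agent.S59.MFree.H57.Norm
import Fermat.Agent.S41.H581.TransferBasic
import Fermat.Agent.S59.TW.Aut.H762.CorAbs

/-!
# S59 / cell TW, layer 3 (AUT), leaf CTRL, piece (5) COR — generic form (helper762)

Vocabulary of block M-FREE: `Γ ≤ SL(2,ℤ)`, `κ : Γ →* D` onto a finite group, `Γ' = kerSub κ`,
`conjAct κ g`, `res κ`, `cor κ`.  `𝒪` a domain of characteristic `0`.

`cor_ctrl_gen_h762` : `V ⊆ Hom(Γ', 𝒪)`, `W ⊆ Hom(Γ, 𝒪)` submodules with `cor V ⊆ W`, `res W ⊆ V`,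
and `V` has an "`𝒪[D]`-basis" (`∃!` form, section `s` of `κ`).  Then `cor V = W` and
`ker (cor | V)` is the additive closure of the `conjAct κ g y' - y'` (`y' ∈ V`).

`corLin_h762` : the `𝒪`-linear map `cor`.
-/

set_option autoImplicit false

namespace Fermat.Agent.S59.TW.Aut.H762

open Fermat.Agent.S41.Spec Fermat.Agent.S59.MFree
open scoped MatrixGroups

section Lin

variable {Γ : Subgroup SL(2, ℤ)} {D : Type} [Group D] (κ : Γ →* D)
  (𝒪 : Type) [CommRing 𝒪]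

theorem smul_eq_comp_h762 {G : Type*} [AddMonoid G] (a : 𝒪) (φ : G →+ 𝒪) :
    a • φ = (AddMonoidHom.mulLeft a).comp φ := by
  ext h
  rfl

/-- `cor`, `𝒪`-linear. -/
noncomputable def corLin_h762 : (Additive (kerSub κ) →+ 𝒪) →ₗ[𝒪] (Additive Γ →+ 𝒪) where
  toFun x := cor κ x
  map_add' x y := Fermat.Agent.S41.H581.transferAlong_add _ x y
  map_smul' a x := by
    rw [RingHom.id_apply, smul_eq_comp_h762, smul_eq_comp_h762]
    exact Fermat.Agent.S41.H581.transferAlong_comp _ (AddMonoidHom.mulLeft a) x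

@[simp] theorem corLin_h762_apply (x : Additive (kerSub κ) →+ 𝒪) :
    corLin_h762 κ 𝒪 x = cor κ x := rfl

/-- `res`, `𝒪`-linear. -/
def resLin_h762 : (Additive Γ →+ 𝒪) →ₗ[𝒪] (Additive (kerSub κ) →+ 𝒪) where
  toFun y := res κ y
  map_add' _ _ := rfl
  map_smul' _ _ := rfl

@[simp] theorem resLin_h762_apply (y : Additive Γ →+ 𝒪) :
    resLin_h762 κ 𝒪 y = res κ y := rfl

/-- the diamond operator `conjAct κ g`, `𝒪`-linear. -/
def conjLin_h762 (g : Γ) : (Additive (kerSub κ) →+ 𝒪) →ₗ[𝒪] (Additive (kerSub κ) →+ 𝒪) where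
  toFun x := conjAct κ g x
  map_add' _ _ := rfl
  map_smul' _ _ := rfl

@[simp] theorem conjLin_h762_apply (g : Γ) (x : Additive (kerSub κ) →+ 𝒪) :
    conjLin_h762 κ 𝒪 g x = conjAct κ g x := rfl

end Lin

section Facts

variable {Γ : Subgroup SL(2, ℤ)} {D : Type} [Group D] (κ : Γ →* D)
  {A : Type} [AddCommGroup A]

theorem conjAct_mul_h762 (g h : Γ) (x : Additive (kerSub κ) →+ A) :
    conjAct κ g (conjAct κ h x) = conjAct κ (g * h) x := by
  refine AddMonoidHom.ext fun k' => ?_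
  obtain ⟨k, rfl⟩ : ∃ k : kerSub κ, Additive.ofMul k = k' := ⟨Additive.toMul k', rfl⟩
  rw [conjAct_apply, conjAct_apply, conjAct_apply]
  have e : conjKer κ h (conjKer κ g k) = conjKer κ (g * h) k := by
    apply Subtype.ext
    simp only [conjKer_coe, Subgroup.coe_mul, mul_inv_rev, mul_assoc]
  rw [e]

/-- The diamond operators act trivially on restrictions. -/
theorem conjAct_res_h762 (g : Γ) (y : Additive Γ →+ A) :
    conjAct κ g (res κ y) = res κ y := by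
  refine AddMonoidHom.ext fun k' => ?_
  obtain ⟨k, rfl⟩ : ∃ k : kerSub κ, Additive.ofMul k = k' := ⟨Additive.toMul k', rfl⟩
  rw [conjAct_apply, res_apply, res_apply]
  have e : Subgroup.inclusion (kerSub_le κ) (conjKer κ g k) =
      g⁻¹ * Subgroup.inclusion (kerSub_le κ) k * g := rfl
  rw [e, ofMul_mul, ofMul_mul, ofMul_inv, map_add, map_add, map_neg]
  abel

end Facts

section Ctrl

variable {Γ : Subgroup SL(2, ℤ)} {D : Type} [Group D] [Fintype D] (κ : Γ →* D)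
  (hκ : Function.Surjective κ)
  (𝒪 : Type) [CommRing 𝒪] [IsDomain 𝒪] [CharZero 𝒪]
  (V : Submodule 𝒪 (Additive (kerSub κ) →+ 𝒪)) (W : Submodule 𝒪 (Additive Γ →+ 𝒪))
  (hres : ∀ y ∈ W, res κ y ∈ V)
  {d : ℕ} (b : Fin d → (Additive (kerSub κ) →+ 𝒪)) (hbV : ∀ i, b i ∈ V)
  (s : D → Γ) (hs : ∀ d, κ (s d) = d)
  (hb : ∀ y ∈ V, ∃! c : Fin d → D → 𝒪, y = ∑ i, ∑ g, c i g • conjAct κ (s g) (b i))

omit [Fintype D] [IsDomain 𝒪] [CharZero 𝒪] in
include hs in
theorem conjAct_section_mul_h762 (g h : D) (x : Additive (kerSub κ) →+ 𝒪) :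
    conjAct κ (s g) (conjAct κ (s h) x) = conjAct κ (s (g * h)) x := by
  rw [conjAct_mul_h762]
  apply H57.conjAct_congr57
  rw [hs, map_mul, hs, hs]

omit [Fintype D] [IsDomain 𝒪] [CharZero 𝒪] in
include hs in
theorem conjAct_eq_section_h762 (g : Γ) (x : Additive (kerSub κ) →+ 𝒪) :
    conjAct κ g x = conjAct κ (s (κ g)) x := by
  apply H57.conjAct_congr57
  rw [hs]

theorem torsionFree_h762 (n : ℕ) (hn : n ≠ 0) (y : Additive Γ →+ 𝒪) (h : n • y = 0) : y = 0 := by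
  refine AddMonoidHom.ext fun γ => ?_
  have h1 := congrArg (fun f : Additive Γ →+ 𝒪 => f γ) h
  simp only [AddMonoidHom.smul_apply, AddMonoidHom.zero_apply, nsmul_eq_mul] at h1
  rcases mul_eq_zero.mp h1 with h2 | h2
  · exact absurd (Nat.cast_eq_zero.mp h2) hn
  · exact h2

include hκ hres hbV hs hb in
/-- **COR, surjectivity**: every element of `W` is `cor v`, `v ∈ V`. -/
theorem cor_surj_gen_h762 {w : Additive Γ →+ 𝒪} (hw : w ∈ W) : ∃ v ∈ V, cor κ v = w := by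
  have key := cor_surj_abs_h762 (G := D) (fun g x => conjAct κ (s g) x)
    (corLin_h762 κ 𝒪).toAddMonoidHom (resLin_h762 κ 𝒪).toAddMonoidHom
    (fun x => H57.resCor.{0} Γ D κ s hs 𝒪 x)
    (fun y => H57.corRes.{0} Γ D κ hκ 𝒪 y)
    (fun g y => conjAct_res_h762 κ (s g) y)
    (fun y hy => torsionFree_h762 𝒪 _ Fintype.card_ne_zero y hy)
    V.toAddSubgroup W.toAddSubgroup hres
    (fun y hy hinv => inv_norm_h762 (fun g => conjLin_h762 κ 𝒪 (s g))
      (fun g h x => conjAct_section_mul_h762 κ 𝒪 s hs g h x) V b hbV hb hy hinv)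
    hw
  exact key

omit [IsDomain 𝒪] [CharZero 𝒪] in
include hs hbV hb in
/-- **COR, kernel**: `ker (cor | V) = I_D V`. -/
theorem cor_ker_gen_h762 {v : Additive (kerSub κ) →+ 𝒪} (hv : v ∈ V) :
    cor κ v = 0 ↔ v ∈ AddSubgroup.closure
      {z : Additive (kerSub κ) →+ 𝒪 | ∃ (g : Γ) (y' : Additive (kerSub κ) →+ 𝒪),
        y' ∈ V ∧ z = conjAct κ g y' - y'} := by
  have key := cor_ker_abs_h762 (G := D) (fun g x => conjAct κ (s g) x)
    (corLin_h762 κ 𝒪).toAddMonoidHom (resLin_h762 κ 𝒪).toAddMonoidHom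
    (fun x => H57.resCor.{0} Γ D κ s hs 𝒪 x)
    (fun g x => H57.corConj.{0} Γ D κ (s g) 𝒪 x)
    V.toAddSubgroup
    (fun y hy hN => ker_norm_h762 (fun g => conjLin_h762 κ 𝒪 (s g))
      (fun g h x => conjAct_section_mul_h762 κ 𝒪 s hs g h x) V b hbV hb hy hN)
    hv
  have hset : {z : Additive (kerSub κ) →+ 𝒪 | ∃ (g : D) (y' : Additive (kerSub κ) →+ 𝒪),
      y' ∈ V.toAddSubgroup ∧ z = conjAct κ (s g) y' - y'} =
      {z : Additive (kerSub κ) →+ 𝒪 | ∃ (g : Γ) (y' : Additive (kerSub κ) →+ 𝒪),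
        y' ∈ V ∧ z = conjAct κ g y' - y'} := by
    ext z
    constructor
    · rintro ⟨g, y', hy', rfl⟩
      exact ⟨s g, y', hy', rfl⟩
    · rintro ⟨g, y', hy', rfl⟩
      exact ⟨κ g, y', hy', by rw [← conjAct_eq_section_h762 κ 𝒪 s hs g y']⟩
  rw [← hset]
  exact key

end Ctrl

end Fermat.Agent.S59.TW.Aut.H762
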