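import Fermat.Agent.S59.TW.Aut.Spec

/-!
# S59 / cell TW, layer 3 (AUT), leaf CTRL, piece (5) COR — the index set of `FreeAt` (helper762)

For primitive roots `g_j` modulo the primes `q_j`, the map
`e ↦ class of (g_j ^ e_j)_j`, `∏_j Fin (p ^ m_j) → Δ_Q` (`m_j = v_p(q_j - 1)`), is bijective.
-/

set_option autoImplicit false

namespace Fermat.Agent.S59.TW.Aut.H762

open Fermat.Agent.S59.TW.Aut

variable (p : ℕ) {r : ℕ} (qv : Fin r → ℕ)

/-- The index map `e ↦ class of (g_j ^ e_j)_j` of `FreeAt`. -/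
def epsIdx (g : ∀ j : Fin r, (ZMod (qv j))ˣ)
    (e : ∀ j : Fin r, Fin (p ^ padicValNat p (qv j - 1))) : Delta p qv :=
  QuotientGroup.mk (fun j => g j ^ (e j : ℕ))

theorem mem_powSub_iff (a : ∀ j : Fin r, (ZMod (qv j))ˣ) :
    a ∈ powSub p qv ↔ ∀ j, ∃ u : (ZMod (qv j))ˣ, u ^ (p ^ padicValNat p (qv j - 1)) = a j := by
  unfold powSub
  rw [Subgroup.mem_pi]
  constructor
  · intro h j
    obtain ⟨u, hu⟩ := h j (Set.mem_univ j)
    exact ⟨u, hu⟩
  · intro h j _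
    obtain ⟨u, hu⟩ := h j
    exact ⟨u, hu⟩

/-- A primitive root generates. -/
theorem exists_pow_eq_of_orderOf {q : ℕ} (hq : q.Prime) {g : (ZMod q)ˣ}
    (hg : orderOf g = q - 1) (u : (ZMod q)ˣ) : ∃ k : ℕ, g ^ k = u := by
  have : Fact q.Prime := ⟨hq⟩
  have hcard : Nat.card (ZMod q)ˣ = q - 1 := by
    rw [Nat.card_eq_fintype_card, ZMod.card_units]
  have h1 : Subgroup.zpowers g = ⊤ := by
    apply (Subgroup.card_eq_iff_eq_top _).mp
    rw [Nat.card_zpowers, hg, hcard]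
  have h2 : u ∈ Subgroup.zpowers g := by
    rw [h1]
    exact Subgroup.mem_top u
  rw [← mem_powers_iff_mem_zpowers] at h2
  exact (Submonoid.mem_powers_iff u g).mp h2

theorem epsIdx_injective [Fact p.Prime] (hprime : ∀ j, (qv j).Prime)
    (g : ∀ j : Fin r, (ZMod (qv j))ˣ) (hg : ∀ j, orderOf (g j) = qv j - 1) :
    Function.Injective (epsIdx p qv g) := by
  intro e e' h
  unfold epsIdx at h
  rw [QuotientGroup.eq, mem_powSub_iff] at h
  funext j
  obtain ⟨u, hu⟩ := h j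
  obtain ⟨k, rfl⟩ := exists_pow_eq_of_orderOf (hprime j) (hg j) u
  have h1 : g j ^ (k * p ^ padicValNat p (qv j - 1) + (e j : ℕ)) = g j ^ (e' j : ℕ) := by
    rw [pow_add, pow_mul, hu]
    simp
  rw [pow_eq_pow_iff_modEq, hg j] at h1
  have hdvd : p ^ padicValNat p (qv j - 1) ∣ qv j - 1 := pow_padicValNat_dvd
  have h2 : (k * p ^ padicValNat p (qv j - 1) + (e j : ℕ)) ≡ (e' j : ℕ)
      [MOD p ^ padicValNat p (qv j - 1)] := h1.of_dvd hdvd
  have h3 : ((e j : ℕ)) ≡ (e' j : ℕ) [MOD p ^ padicValNat p (qv j - 1)] := by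
    have h4 : (k * p ^ padicValNat p (qv j - 1) + (e j : ℕ)) ≡ (e j : ℕ)
        [MOD p ^ padicValNat p (qv j - 1)] := by
      unfold Nat.ModEq
      rw [Nat.mul_add_mod_of_lt (e j).2] 
      exact (Nat.mod_eq_of_lt (e j).2).symm
    exact h4.symm.trans h2
  apply Fin.ext
  unfold Nat.ModEq at h3
  rw [Nat.mod_eq_of_lt (e j).2, Nat.mod_eq_of_lt (e' j).2] at h3
  exact h3

theorem epsIdx_surjective [hp : Fact p.Prime] (hprime : ∀ j, (qv j).Prime)
    (g : ∀ j : Fin r, (ZMod (qv j))ˣ) (hg : ∀ j, orderOf (g j) = qv j - 1) :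
    Function.Surjective (epsIdx p qv g) := by
  intro d
  obtain ⟨a, rfl⟩ := QuotientGroup.mk_surjective d
  have hk : ∀ j, ∃ k : ℕ, g j ^ k = a j := fun j =>
    exists_pow_eq_of_orderOf (hprime j) (hg j) (a j)
  choose k hk using hk
  have hpos : ∀ j, 0 < p ^ padicValNat p (qv j - 1) := fun j => pow_pos hp.out.pos _
  refine ⟨fun j => ⟨k j % p ^ padicValNat p (qv j - 1), Nat.mod_lt _ (hpos j)⟩, ?_⟩
  unfold epsIdx
  rw [QuotientGroup.eq, mem_powSub_iff]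
  intro j
  refine ⟨g j ^ (k j / p ^ padicValNat p (qv j - 1)), ?_⟩
  show _ = ((fun j => g j ^ (k j % p ^ padicValNat p (qv j - 1)))⁻¹ * a) j
  rw [Pi.mul_apply, Pi.inv_apply, ← hk j, ← pow_mul, eq_inv_mul_iff_mul_eq, ← pow_add]
  congr 1
  rw [mul_comm]
  exact Nat.mod_add_div _ _

theorem epsIdx_bijective [Fact p.Prime] (hprime : ∀ j, (qv j).Prime)
    (g : ∀ j : Fin r, (ZMod (qv j))ˣ) (hg : ∀ j, orderOf (g j) = qv j - 1) :
    Function.Bijective (epsIdx p qv g) :=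
  ⟨epsIdx_injective p qv hprime g hg, epsIdx_surjective p qv hprime g hg⟩

/-- Primitive roots exist. -/
theorem exists_primitive_roots (hprime : ∀ j, (qv j).Prime) :
    ∃ g : ∀ j : Fin r, (ZMod (qv j))ˣ, ∀ j, orderOf (g j) = qv j - 1 := by
  have h : ∀ j, ∃ g : (ZMod (qv j))ˣ, orderOf g = qv j - 1 := by
    intro j
    have : Fact (qv j).Prime := ⟨hprime j⟩
    obtain ⟨g, hg⟩ := IsCyclic.exists_generator (α := (ZMod (qv j))ˣ)
    refine ⟨g, ?_⟩
    rw [orderOf_eq_card_of_forall_mem_zpowers hg, Nat.card_eq_fintype_card, ZMod.card_units]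
  choose g hg using h
  exact ⟨g, hg⟩

end Fermat.Agent.S59.TW.Aut.H762
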