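import Fermat.Agent.S59.TW.Aut.Skel
import Fermat.Agent.S59.TW.H653.UqKer
import Fermat.Agent.S59.TW.Aut.H762.CorIdx
import Fermat.Agent.S59.TW.Aut.H762.CorGen

/-!
# S59 / cell TW, layer 3 (AUT), leaf CTRL, piece (5) COR (helper762)

`K_Q = KQ p N₀ qv = ker κ_Q ≤ Γ₀(M_Q)`, `M_Q = bLevel N₀ qv`, `Δ_Q = Delta p qv`.
For submodules `V ⊆ X_{K_Q}(𝒪)`, `W ⊆ X_{Γ₀(M_Q)}(𝒪)` (`𝒪` a domain of characteristic `0`) with

* `V` stable under the diamond operators and free over `𝒪[Δ_Q]` in the sense of `Aut.FreeAt`,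
* `cor V ⊆ W`, `res W ⊆ V` (for the localisations `IsLocPart`: naturality, piece NAT1),

the corestriction induces a surjective `𝒪`-linear map `c : V → W` whose kernel is the augmentation
submodule `I_Δ V` (additive closure of the `⟨a⟩ y' - y'`, `y' ∈ V`), in the shape of `Aut.CtrlAt`:

* `cor_ctrl_N0_h762` : for every `N₀ ≠ 0`;
* `cor_ctrl_h762`    : in the vocabulary `XQ`, `diaQ`, `FreeAt` of `Aut/Spec.lean`;
* `cor_ctrl_locPart_h762` : the same for `IsLocPart` (diamond-stability automatic);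
* `coresK_TK_h762`, `coresK_UK_h762` : `cor` commutes with `T_ℓ` (`ℓ ∤ M_Q`) and `U_q` (`q ∣ M_Q`);
* `cor_ctrl_tOp_h762` : hence `c` commutes with the `T_ℓ` (clause of `Aut.CtrlAt`).
-/

set_option autoImplicit false

namespace Fermat.Agent.S59.TW.Aut.H762

open CongruenceSubgroup
open Fermat.Agent.S59.Arch Fermat.Agent.S59.TW.H653 Fermat.Agent.S59.MFree
open Fermat.Agent.S59.TW.Aut
open scoped MatrixGroups

section Kappa

variable (p N₀ : ℕ) {r : ℕ} (qv : Fin r → ℕ)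

theorem kappa_trivial_h762 (γ : Gamma0 (bLevel N₀ qv))
    (h : ((((γ : SL(2, ℤ)) 1 1 : ℤ)) : ZMod (bLevel N₀ qv)) = 1) : kappa p N₀ qv γ = 1 := by
  have h1 : dUnit (bLevel N₀ qv) γ = 1 := by
    apply Units.ext
    rw [coe_dUnit, h, Units.val_one]
  unfold kappa
  rw [MonoidHom.comp_apply, h1, map_one]

theorem kappa_apply_h762 (γ : Gamma0 (bLevel N₀ qv)) :
    kappa p N₀ qv γ = chi p N₀ qv (dUnit (bLevel N₀ qv) γ) := rfl

theorem chi_apply_h762 (u : (ZMod (bLevel N₀ qv))ˣ) :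
    chi p N₀ qv u = QuotientGroup.mk (red N₀ qv u) := rfl

theorem kappa_surjective_h762 [NeZero (bLevel N₀ qv)]
    (hsurj : Function.Surjective (red N₀ qv)) : Function.Surjective (kappa p N₀ qv) := by
  intro d
  obtain ⟨a, rfl⟩ := QuotientGroup.mk_surjective d
  obtain ⟨u, rfl⟩ := hsurj a
  obtain ⟨γ, rfl⟩ := dUnit_surjective u
  exact ⟨γ, rfl⟩

theorem neZero_bLevel_h762 [NeZero N₀] (hprime : ∀ j, (qv j).Prime) : NeZero (bLevel N₀ qv) :=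
  ⟨Nat.mul_ne_zero (NeZero.ne N₀) (Finset.prod_ne_zero_iff.mpr fun j _ => (hprime j).ne_zero)⟩

/-- The diamond operator `⟨a⟩` of `K_Q` in the vocabulary of block M-FREE. -/
theorem diamondU_liftU_eq_conjAct_h762 [NeZero (bLevel N₀ qv)]
    (hsurj : Function.Surjective (red N₀ qv)) {A : Type} [AddCommGroup A]
    (a : ∀ j : Fin r, (ZMod (qv j))ˣ) (γ : Gamma0 (bLevel N₀ qv))
    (hγ : kappa p N₀ qv γ = (QuotientGroup.mk a)⁻¹)
    (x : Additive (kerSub (kappa p N₀ qv)) →+ A) :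
    diamondU (isMid_KQ p N₀ qv) (liftU N₀ qv a) x = conjAct (kappa p N₀ qv) γ x := by
  rw [conjAct_eq_diamond (kappa p N₀ qv) (kappa_trivial_h762 p N₀ qv) γ x]
  rw [diamond_eq_diamondU]
  apply diamondU_eq_of_chi
  have h1 : chi p N₀ qv (liftU N₀ qv a) = QuotientGroup.mk a := by
    rw [chi_apply_h762, red_liftU N₀ qv (hsurj a)]
  have h2 : chi p N₀ qv (dUnit (bLevel N₀ qv) γ⁻¹) = QuotientGroup.mk a := by
    rw [← kappa_apply_h762, map_inv, hγ]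
    exact inv_inv (QuotientGroup.mk a : Delta p qv)
  exact h1.trans h2.symm

end Kappa

section CorHecke

variable (p N₀ : ℕ) {r : ℕ} (qv : Fin r → ℕ) {A : Type} [AddCommGroup A]

/-- `cor` commutes with `U_q`, `q ∣ M_Q`. -/
theorem coresK_UK_h762 {q : ℕ} [Fact q.Prime] (hq : q ∣ bLevel N₀ qv)
    (x : Additive (KQ p N₀ qv) →+ A) :
    coresK (isMid_KQ p N₀ qv).le (UK (KQ p N₀ qv) q x) =
      UK (Gamma0 (bLevel N₀ qv)) q (coresK (isMid_KQ p N₀ qv).le x) :=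
  cor_UqKer (kappa p N₀ qv) (kappa_trivial_h762 p N₀ qv) hq x

/-- `cor` commutes with `T_ℓ`, `ℓ ∤ M_Q`. -/
theorem coresK_TK_h762 {ℓ : ℕ} [Fact ℓ.Prime] (hℓ : ¬ ℓ ∣ bLevel N₀ qv)
    (x : Additive (KQ p N₀ qv) →+ A) :
    coresK (isMid_KQ p N₀ qv).le (TK (bLevel N₀ qv) (KQ p N₀ qv) ℓ x) =
      TK (bLevel N₀ qv) (Gamma0 (bLevel N₀ qv)) ℓ (coresK (isMid_KQ p N₀ qv).le x) := by
  have h1 := cor_transfer (kappa p N₀ qv) (kappa_trivial_h762 p N₀ qv) (repsT_system0 hℓ)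
    (isNormRep_repsT hℓ) x
  rw [TK_eq (isMid_KQ p N₀ qv) hℓ, TK_eq (isMid_Gamma0 _) hℓ]
  exact h1

end CorHecke

section Main

variable {p : ℕ} [hp : Fact p.Prime] (N₀ : ℕ) [hN₀ : NeZero N₀] {r : ℕ} (qv : Fin r → ℕ)
  (hprime : ∀ j, (qv j).Prime) (hinj : Function.Injective qv)
  (𝒪 : Type) [CommRing 𝒪] [IsDomain 𝒪] [CharZero 𝒪]

include hp hN₀ hprime hinj in
/-- **COR** (piece (5) of leaf CTRL), for every `N₀ ≠ 0`. -/
theorem cor_ctrl_N0_h762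
    (V : Submodule 𝒪 (Additive (KQ p N₀ qv) →+ 𝒪))
    (W : Submodule 𝒪 (Additive (Gamma0 (bLevel N₀ qv)) →+ 𝒪))
    (hVdia : ∀ (a : ∀ j : Fin r, (ZMod (qv j))ˣ), ∀ x ∈ V,
      diamondU (isMid_KQ p N₀ qv) (liftU N₀ qv a) x ∈ V)
    (hfree : ∀ g : ∀ j : Fin r, (ZMod (qv j))ˣ, (∀ j, orderOf (g j) = qv j - 1) →
      ∃ (d : ℕ) (b : Fin d → V), ∀ y : V,
        ∃! c : Fin d → (∀ j : Fin r, Fin (p ^ padicValNat p (qv j - 1))) → 𝒪,
          (y : Additive (KQ p N₀ qv) →+ 𝒪) =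
            ∑ i, ∑ e, c i e •
              diamondU (isMid_KQ p N₀ qv) (liftU N₀ qv (fun j => g j ^ (e j : ℕ))) (b i))
    (hcor : ∀ x ∈ V, coresK (isMid_KQ p N₀ qv).le x ∈ W)
    (hres : ∀ y ∈ W, resK (isMid_KQ p N₀ qv).le y ∈ V) :
    ∃ c : V →ₗ[𝒪] W, Function.Surjective c ∧
      (∀ v : V, ((c v : W) : Additive (Gamma0 (bLevel N₀ qv)) →+ 𝒪) =
        coresK (isMid_KQ p N₀ qv).le (v : Additive (KQ p N₀ qv) →+ 𝒪)) ∧
      ∀ y : V, c y = 0 ↔ y ∈ AddSubgroup.closure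
        {z : V | ∃ (a : ∀ j : Fin r, (ZMod (qv j))ˣ) (y' : V),
          (z : Additive (KQ p N₀ qv) →+ 𝒪) =
            diamondU (isMid_KQ p N₀ qv) (liftU N₀ qv a) (y' : Additive (KQ p N₀ qv) →+ 𝒪) -
              (y' : Additive (KQ p N₀ qv) →+ 𝒪)} := by
  classical
  have hM : NeZero (bLevel N₀ qv) := neZero_bLevel_h762 N₀ qv hprime
  have hsurj := red_surjective N₀ qv (NeZero.ne N₀) hinj hprime
  have hκ := kappa_surjective_h762 p N₀ qv hsurj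
  have hNZ : ∀ j, NeZero (qv j) := fun j => ⟨(hprime j).ne_zero⟩
  have hfin : Finite (Delta p qv) := inferInstance
  let _ : Fintype (Delta p qv) := Fintype.ofFinite _
  let s : Delta p qv → Gamma0 (bLevel N₀ qv) := Function.surjInv hκ
  have hs : ∀ d, kappa p N₀ qv (s d) = d := Function.surjInv_eq hκ
  -- the diamond operators in the vocabulary of M-FREE
  have hdia : ∀ (a : ∀ j : Fin r, (ZMod (qv j))ˣ)
      (x : Additive (kerSub (kappa p N₀ qv)) →+ 𝒪),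
      diamondU (isMid_KQ p N₀ qv) (liftU N₀ qv a) x =
        conjAct (kappa p N₀ qv) (s (QuotientGroup.mk a : Delta p qv)⁻¹) x := fun a x =>
    diamondU_liftU_eq_conjAct_h762 p N₀ qv hsurj a _ (hs _) x
  have hdiaF : ∀ (a : ∀ j : Fin r, (ZMod (qv j))ˣ),
      (diamondU (isMid_KQ p N₀ qv) (liftU N₀ qv a) :
        (Additive (KQ p N₀ qv) →+ 𝒪) → (Additive (KQ p N₀ qv) →+ 𝒪)) =
      fun x => conjAct (kappa p N₀ qv) (s (QuotientGroup.mk a : Delta p qv)⁻¹) x :=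
    fun a => funext fun x => hdia a x
  have hconj : ∀ (γ : Gamma0 (bLevel N₀ qv)) (x : Additive (kerSub (kappa p N₀ qv)) →+ 𝒪),
      ∃ a : ∀ j : Fin r, (ZMod (qv j))ˣ,
        conjAct (kappa p N₀ qv) γ x = diamondU (isMid_KQ p N₀ qv) (liftU N₀ qv a) x := by
    intro γ x
    obtain ⟨a', ha'⟩ := QuotientGroup.mk_surjective (kappa p N₀ qv γ)
    refine ⟨a'⁻¹, ?_⟩
    have h3 : kappa p N₀ qv γ = (QuotientGroup.mk (a'⁻¹) : Delta p qv)⁻¹ := by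
      rw [← ha']
      exact (inv_inv (QuotientGroup.mk a' : Delta p qv)).symm
    rw [diamondU_liftU_eq_conjAct_h762 p N₀ qv hsurj a'⁻¹ γ h3 x]
  -- the basis
  obtain ⟨g, hg⟩ := exists_primitive_roots qv hprime
  obtain ⟨d, b, hb⟩ := hfree g hg
  have hεbij : Function.Bijective (fun e => (epsIdx p qv g e)⁻¹) :=
    (Equiv.inv (Delta p qv)).bijective.comp (epsIdx_bijective p qv hprime g hg)
  have hb' : ∀ y ∈ V, ∃! c : Fin d → Delta p qv → 𝒪,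
      y = ∑ i, ∑ g', c i g' •
        conjAct (kappa p N₀ qv) (s g') ((b i : V) : Additive (KQ p N₀ qv) →+ 𝒪) := by
    intro y hy
    have h1 := hb ⟨y, hy⟩
    simp only [hdiaF] at h1
    exact basis_transport_h762 (fun d' => conjLin_h762 (kappa p N₀ qv) 𝒪 (s d'))
      (fun e => (epsIdx p qv g e)⁻¹) hεbij
      (fun i => ((b i : V) : Additive (KQ p N₀ qv) →+ 𝒪)) h1
  have hsurjW := fun (w : Additive (Gamma0 (bLevel N₀ qv)) →+ 𝒪) (hw : w ∈ W) =>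
    cor_surj_gen_h762 (kappa p N₀ qv) hκ 𝒪 V W hres
      (fun i => ((b i : V) : Additive (KQ p N₀ qv) →+ 𝒪)) (fun i => (b i).2) s hs hb' hw
  have hkerV := fun (v : Additive (KQ p N₀ qv) →+ 𝒪) (hv : v ∈ V) =>
    cor_ker_gen_h762 (kappa p N₀ qv) 𝒪 V
      (fun i => ((b i : V) : Additive (KQ p N₀ qv) →+ 𝒪)) (fun i => (b i).2) s hs hb' hv
  -- the map
  refine ⟨LinearMap.codRestrict W ((corLin_h762 (kappa p N₀ qv) 𝒪).comp V.subtype)
    (fun v => hcor v v.2), ?_, fun v => rfl, ?_⟩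
  · rintro ⟨w, hw⟩
    obtain ⟨v, hv, hvw⟩ := hsurjW w hw
    exact ⟨⟨v, hv⟩, Subtype.ext hvw⟩
  · intro y
    have h0 : (LinearMap.codRestrict W ((corLin_h762 (kappa p N₀ qv) 𝒪).comp V.subtype)
        (fun v => hcor v v.2) y = 0) ↔
        cor (kappa p N₀ qv) (y : Additive (KQ p N₀ qv) →+ 𝒪) = 0 := by
      constructor
      · intro h
        exact congrArg Subtype.val h
      · intro h
        exact Subtype.ext h
    rw [h0, hkerV y y.2]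
    -- comparison of the two closures
    have hSXV : ∀ x ∈ {z : Additive (KQ p N₀ qv) →+ 𝒪 |
        ∃ (γ : Gamma0 (bLevel N₀ qv)) (y' : Additive (kerSub (kappa p N₀ qv)) →+ 𝒪),
          y' ∈ V ∧ z = conjAct (kappa p N₀ qv) γ y' - y'}, x ∈ V := by
      rintro x ⟨γ, y', hy', rfl⟩
      obtain ⟨a, ha⟩ := hconj γ y'
      have h5 := V.sub_mem (hVdia a y' hy') hy'
      rw [← ha] at h5
      exact h5
    have h6 := closure_subtype_iff_h762 V _ hSXV y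
    refine h6.trans ?_
    have hset : {z : V | (z : Additive (KQ p N₀ qv) →+ 𝒪) ∈
        {z : Additive (KQ p N₀ qv) →+ 𝒪 |
          ∃ (γ : Gamma0 (bLevel N₀ qv)) (y' : Additive (kerSub (kappa p N₀ qv)) →+ 𝒪),
            y' ∈ V ∧ z = conjAct (kappa p N₀ qv) γ y' - y'}} =
        {z : V | ∃ (a : ∀ j : Fin r, (ZMod (qv j))ˣ) (y' : V),
          (z : Additive (KQ p N₀ qv) →+ 𝒪) =
            diamondU (isMid_KQ p N₀ qv) (liftU N₀ qv a) (y' : Additive (KQ p N₀ qv) →+ 𝒪) -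
              (y' : Additive (KQ p N₀ qv) →+ 𝒪)} := by
      ext z
      constructor
      · rintro ⟨γ, y', hy', hz⟩
        obtain ⟨a, ha⟩ := hconj γ y'
        exact ⟨a, ⟨y', hy'⟩, hz.trans (congrArg (fun w => w - y') ha)⟩
      · rintro ⟨a, y', hz⟩
        exact ⟨s (QuotientGroup.mk a : Delta p qv)⁻¹, (y' : Additive (KQ p N₀ qv) →+ 𝒪), y'.2,
          hz.trans (congrArg (fun w => w - (y' : Additive (KQ p N₀ qv) →+ 𝒪))
            (hdia a (y' : Additive (KQ p N₀ qv) →+ 𝒪)))⟩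
    rw [hset]

end Main

section Spec

variable {p : ℕ} [hp : Fact p.Prime] (t : PType) (Smin : Finset ℕ)
  [hN₀ : NeZero (wilesLevel p t Smin Smin)] {r : ℕ} (qv : Fin r → ℕ)
  (hprime : ∀ j, (qv j).Prime) (hinj : Function.Injective qv)
  (𝒪 : Type) [CommRing 𝒪] [IsDomain 𝒪] [CharZero 𝒪]

include hp hN₀ hprime hinj in
/-- **COR** (piece (5) of leaf CTRL) in the vocabulary of `Aut/Spec.lean`: if `V ⊆ X_{K_Q}(𝒪)` is
diamond-stable and `FreeAt V`, and `cor V ⊆ W`, `res W ⊆ V`, then `cor : V → W` is onto with kernel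
the augmentation submodule (same shape as in `Aut.CtrlAt`). -/
theorem cor_ctrl_h762
    (V : Submodule 𝒪 (XQ p t Smin qv 𝒪))
    (W : Submodule 𝒪 (Additive (Gamma0 (bLevel (wilesLevel p t Smin Smin) qv)) →+ 𝒪))
    (hVdia : ∀ (a : ∀ j : Fin r, (ZMod (qv j))ˣ), ∀ x ∈ V, diaQ p t Smin qv 𝒪 a x ∈ V)
    (hfree : FreeAt V)
    (hcor : ∀ x ∈ V, coresK (isMid_KQ p (wilesLevel p t Smin Smin) qv).le x ∈ W)
    (hres : ∀ y ∈ W, resK (isMid_KQ p (wilesLevel p t Smin Smin) qv).le y ∈ V) :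
    ∃ c : V →ₗ[𝒪] W, Function.Surjective c ∧
      (∀ v : V, ((c v : W) : Additive (Gamma0 (bLevel (wilesLevel p t Smin Smin) qv)) →+ 𝒪) =
        coresK (isMid_KQ p (wilesLevel p t Smin Smin) qv).le (v : XQ p t Smin qv 𝒪)) ∧
      ∀ y : V, c y = 0 ↔ y ∈ AddSubgroup.closure
        {z : V | ∃ (a : ∀ j : Fin r, (ZMod (qv j))ˣ) (y' : V),
          (z : XQ p t Smin qv 𝒪) = diaQ p t Smin qv 𝒪 a y' - y'} :=
  cor_ctrl_N0_h762 (wilesLevel p t Smin Smin) qv hprime hinj 𝒪 V W hVdia hfree hcor hres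

end Spec

section Equivariance

variable {p : ℕ} (N₀ : ℕ) {r : ℕ} (qv : Fin r → ℕ) (𝒪 : Type) [CommRing 𝒪]

/-- Every map `c : V → W` induced by `cor` commutes with the `T_ℓ`, `ℓ ∤ M_Q` (the clause of
`Aut.CtrlAt`, at the level `M_Q`). -/
theorem cor_ctrl_tOp_h762
    (V : Submodule 𝒪 (Additive (KQ p N₀ qv) →+ 𝒪))
    (W : Submodule 𝒪 (Additive (Gamma0 (bLevel N₀ qv)) →+ 𝒪))
    (c : V → W)
    (hc : ∀ v : V, ((c v : W) : Additive (Gamma0 (bLevel N₀ qv)) →+ 𝒪) =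
      coresK (isMid_KQ p N₀ qv).le (v : Additive (KQ p N₀ qv) →+ 𝒪))
    (ℓ : ℕ) (hℓ : ℓ.Prime) (hℓM : ¬ ℓ ∣ bLevel N₀ qv) (v v' : V)
    (hv : (v' : Additive (KQ p N₀ qv) →+ 𝒪) =
      tOp (bLevel N₀ qv) (KQ p N₀ qv) 𝒪 ℓ hℓ (v : Additive (KQ p N₀ qv) →+ 𝒪)) :
    ((c v' : W) : Additive (Gamma0 (bLevel N₀ qv)) →+ 𝒪) =
      tOp (bLevel N₀ qv) (Gamma0 (bLevel N₀ qv)) 𝒪 ℓ hℓ
        ((c v : W) : Additive (Gamma0 (bLevel N₀ qv)) →+ 𝒪) := by
  have : Fact ℓ.Prime := ⟨hℓ⟩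
  rw [hc v', hc v, hv]
  exact coresK_TK_h762 p N₀ qv hℓM (v : Additive (KQ p N₀ qv) →+ 𝒪)

end Equivariance

section LocPart

variable {p : ℕ} [hp : Fact p.Prime] (t : PType) (Smin : Finset ℕ)
  [hN₀ : NeZero (wilesLevel p t Smin Smin)] {r : ℕ} (qv : Fin r → ℕ)
  (hprime : ∀ j, (qv j).Prime) (hinj : Function.Injective qv)
  (𝒪 : Type) [CommRing 𝒪] [IsDomain 𝒪] [CharZero 𝒪] [IsLocalRing 𝒪]

include hp hN₀ hprime hinj in
/-- **COR** for a localisation `V` (`IsLocPart`): the diamond-stability is automatic. -/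
theorem cor_ctrl_locPart_h762 {Tset Uset : Set (ℕ × 𝒪)}
    (V : Submodule 𝒪 (XQ p t Smin qv 𝒪))
    (hV : IsLocPart (isMid_KQ p (wilesLevel p t Smin Smin) qv) Tset Uset V)
    (W : Submodule 𝒪 (Additive (Gamma0 (bLevel (wilesLevel p t Smin Smin) qv)) →+ 𝒪))
    (hfree : FreeAt V)
    (hcor : ∀ x ∈ V, coresK (isMid_KQ p (wilesLevel p t Smin Smin) qv).le x ∈ W)
    (hres : ∀ y ∈ W, resK (isMid_KQ p (wilesLevel p t Smin Smin) qv).le y ∈ V) :
    ∃ c : V →ₗ[𝒪] W, Function.Surjective c ∧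
      (∀ v : V, ((c v : W) : Additive (Gamma0 (bLevel (wilesLevel p t Smin Smin) qv)) →+ 𝒪) =
        coresK (isMid_KQ p (wilesLevel p t Smin Smin) qv).le (v : XQ p t Smin qv 𝒪)) ∧
      ∀ y : V, c y = 0 ↔ y ∈ AddSubgroup.closure
        {z : V | ∃ (a : ∀ j : Fin r, (ZMod (qv j))ˣ) (y' : V),
          (z : XQ p t Smin qv 𝒪) = diaQ p t Smin qv 𝒪 a y' - y'} :=
  cor_ctrl_h762 t Smin qv hprime hinj 𝒪 V W
    (fun a _ hx => hV.diamondU_mem (liftU (wilesLevel p t Smin Smin) qv a) hx) hfree hcor hres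

end LocPart

end Fermat.Agent.S59.TW.Aut.H762
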