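import Mathlib

/-!
# S59 / cell TW, layer 3 (AUT), leaf CMP part (T), piece PCOR — abstract part (helper762)

Mathlib only.  `G` a finite commutative group (`hcomm`) acting `𝒪`-linearly on `X` (`δ`), `V ⊆ X` a stable
submodule with an "`𝒪[G]`-basis" `b : ι → X` (`∃!` form), `D ≤ G` a subgroup.

* `kerNormI_h762` : `ker_norm_h762` for an arbitrary finite index type;
* `basis_restrict_h762` : `V` has the "`𝒪[D]`-basis" `δ (τ c) (b i)`, `(i, c) ∈ ι × G ⧸ D`;
* `ker_norm_sub_h762` : `∑ d ∈ D, δ d y = 0 → y ∈ I_D V`.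
-/

set_option autoImplicit false

namespace Fermat.Agent.S59.TW.Aut.H762

section FreeI

variable {𝒪 : Type*} [CommRing 𝒪] {X : Type*} [AddCommGroup X] [Module 𝒪 X]
  {G : Type*} [Group G] [Fintype G]
  (δ : G → X →ₗ[𝒪] X) (hδ : ∀ g h x, δ g (δ h x) = δ (g * h) x)
  (V : Submodule 𝒪 X) {ι : Type*} [Fintype ι] (b : ι → X) (hbV : ∀ i, b i ∈ V)
  (hb : ∀ y ∈ V, ∃! c : ι → G → 𝒪, y = ∑ i, ∑ g, c i g • δ g (b i))

include hδ in
theorem normI_comb_h762 (c : ι → G → 𝒪) :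
    ∑ h, δ h (∑ i, ∑ g, c i g • δ g (b i)) = ∑ i, ∑ g, (∑ g', c i g') • δ g (b i) := by
  simp only [map_sum, map_smul, hδ]
  rw [Finset.sum_comm]
  refine Finset.sum_congr rfl fun i _ => ?_
  rw [Finset.sum_comm]
  have h1 : ∀ g : G, ∑ h, c i g • δ (h * g) (b i) = c i g • ∑ h, δ h (b i) := by
    intro g
    rw [Finset.smul_sum]
    exact Equiv.sum_comp (Equiv.mulRight g) (fun h => c i g • δ h (b i))
  rw [Finset.sum_congr rfl fun g _ => h1 g, ← Finset.sum_smul, Finset.smul_sum]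

include hδ hbV hb in
/-- **`ker N = I_G V`** for a free `𝒪[G]`-module `V` (any finite index type). -/
theorem kerNormI_h762 {y : X} (hy : y ∈ V) (hN : ∑ g, δ g y = 0) :
    y ∈ AddSubgroup.closure {z : X | ∃ (g : G) (y' : X), y' ∈ V ∧ z = δ g y' - y'} := by
  obtain ⟨c, hc, -⟩ := hb y hy
  have h1 := normI_comb_h762 δ hδ b c
  rw [← hc, hN] at h1
  obtain ⟨c0, -, hc0⟩ := hb 0 V.zero_mem
  have e1 : (fun (i : ι) (_ : G) => ∑ g', c i g') = c0 := hc0 _ h1
  have e2 : (fun (_ : ι) (_ : G) => (0 : 𝒪)) = c0 := by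
    apply hc0
    simp
  have hC : ∀ i, ∑ g', c i g' = 0 := by
    intro i
    have := congrFun (congrFun (e1.trans e2.symm) i) 1
    exact this
  have h2 : y = ∑ i, ∑ g, (δ g (c i g • b i) - c i g • b i) := by
    simp only [Finset.sum_sub_distrib, map_smul]
    rw [← hc]
    have : ∑ i, ∑ g, c i g • b i = 0 := by
      refine Finset.sum_eq_zero fun i _ => ?_
      rw [← Finset.sum_smul, hC i, zero_smul]
    rw [this, sub_zero]
  rw [h2]
  refine AddSubgroup.sum_mem _ fun i _ => AddSubgroup.sum_mem _ fun g _ => ?_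
  exact AddSubgroup.subset_closure ⟨g, c i g • b i, V.smul_mem _ (hbV i), rfl⟩

end FreeI

section Restrict

variable {𝒪 : Type*} [CommRing 𝒪] {X : Type*} [AddCommGroup X] [Module 𝒪 X]
  {G : Type*} [Group G] [Fintype G] (hcomm : ∀ a b : G, a * b = b * a)
  (δ : G → X →ₗ[𝒪] X) (hδ : ∀ g h x, δ g (δ h x) = δ (g * h) x)
  (V : Submodule 𝒪 X) (hVδ : ∀ g, ∀ x ∈ V, δ g x ∈ V)
  {ι : Type*} [Fintype ι] (b : ι → X) (hbV : ∀ i, b i ∈ V)
  (hb : ∀ y ∈ V, ∃! c : ι → G → 𝒪, y = ∑ i, ∑ g, c i g • δ g (b i))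
  (D : Subgroup G) [Fintype D]

theorem out_inv_mul_mem_h762 (g : G) :
    (Quotient.out (QuotientGroup.mk g : G ⧸ D))⁻¹ * g ∈ D := by
  rw [← QuotientGroup.eq]
  exact QuotientGroup.out_eq' _

/-- The bijection `(G ⧸ D) × D ≃ G`, `(c, d) ↦ τ c * d`. -/
noncomputable def cosetEquiv_h762 : (G ⧸ D) × D ≃ G where
  toFun x := Quotient.out x.1 * (x.2 : G)
  invFun g := (QuotientGroup.mk g,
    ⟨(Quotient.out (QuotientGroup.mk g : G ⧸ D))⁻¹ * g, out_inv_mul_mem_h762 D g⟩)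
  left_inv x := by
    obtain ⟨c, d⟩ := x
    have h1 : (QuotientGroup.mk (Quotient.out c * (d : G)) : G ⧸ D) = c := by
      rw [QuotientGroup.mk_mul_of_mem _ d.2]
      exact QuotientGroup.out_eq' c
    refine Prod.ext h1 ?_
    apply Subtype.ext
    show (Quotient.out (QuotientGroup.mk (Quotient.out c * (d : G)) : G ⧸ D))⁻¹ *
      (Quotient.out c * (d : G)) = d
    rw [h1, inv_mul_cancel_left]
  right_inv g := by
    show Quotient.out (QuotientGroup.mk g : G ⧸ D) *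
      ((Quotient.out (QuotientGroup.mk g : G ⧸ D))⁻¹ * g) = g
    rw [mul_inv_cancel_left]

theorem cosetEquiv_h762_apply (x : (G ⧸ D) × D) :
    cosetEquiv_h762 D x = Quotient.out x.1 * (x.2 : G) := rfl

/-- The change of coefficients. -/
noncomputable def coeffEquiv_h762 [Fintype (G ⧸ D)] :
    (ι × (G ⧸ D) → D → 𝒪) ≃ (ι → G → 𝒪) where
  toFun c' i g := c' (i, ((cosetEquiv_h762 D).symm g).1) ((cosetEquiv_h762 D).symm g).2
  invFun c x d := c x.1 (cosetEquiv_h762 D (x.2, d))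
  left_inv c' := by
    funext x d
    simp
  right_inv c := by
    funext i g
    simp

include hcomm hδ in
theorem comb_coeffEquiv_h762 [Fintype (G ⧸ D)] (c' : ι × (G ⧸ D) → D → 𝒪) :
    ∑ i, ∑ g, coeffEquiv_h762 (ι := ι) (𝒪 := 𝒪) D c' i g • δ g (b i) =
      ∑ x : ι × (G ⧸ D), ∑ d : D, c' x d • δ (d : G) (δ (Quotient.out x.2) (b x.1)) := by
  rw [Fintype.sum_prod_type]
  refine Finset.sum_congr rfl fun i _ => ?_
  rw [← Equiv.sum_comp (cosetEquiv_h762 D)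
    (fun g => coeffEquiv_h762 (ι := ι) (𝒪 := 𝒪) D c' i g • δ g (b i)), Fintype.sum_prod_type]
  refine Finset.sum_congr rfl fun c₀ _ => Finset.sum_congr rfl fun d _ => ?_
  have h1 : coeffEquiv_h762 (ι := ι) (𝒪 := 𝒪) D c' i (cosetEquiv_h762 D (c₀, d)) = c' (i, c₀) d := by
    show c' (i, ((cosetEquiv_h762 D).symm (cosetEquiv_h762 D (c₀, d))).1)
      ((cosetEquiv_h762 D).symm (cosetEquiv_h762 D (c₀, d))).2 = _
    rw [Equiv.symm_apply_apply]
  rw [h1, cosetEquiv_h762_apply, hδ, hcomm]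

include hcomm hδ hb in
/-- **`V` is free over `𝒪[D]`** with the basis `δ (τ c) (b i)`. -/
theorem basis_restrict_h762 [Fintype (G ⧸ D)] {y : X} (hy : y ∈ V) :
    ∃! c' : ι × (G ⧸ D) → D → 𝒪,
      y = ∑ x : ι × (G ⧸ D), ∑ d : D, c' x d • δ (d : G) (δ (Quotient.out x.2) (b x.1)) := by
  have h1 := hb y hy
  have h2 := ((coeffEquiv_h762 (ι := ι) (𝒪 := 𝒪) D).bijective.existsUnique_iff
    (p := fun c => y = ∑ i, ∑ g, c i g • δ g (b i))).mp h1
  simp only [comb_coeffEquiv_h762 hcomm δ hδ b D] at h2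
  exact h2

include hcomm hδ hVδ hbV hb in
/-- **`ker N_D = I_D V`** for a subgroup `D ≤ G` and a free `𝒪[G]`-module `V`. -/
theorem ker_norm_sub_h762 {y : X} (hy : y ∈ V) (hN : ∑ d : D, δ (d : G) y = 0) :
    y ∈ AddSubgroup.closure {z : X | ∃ (d : D) (y' : X), y' ∈ V ∧ z = δ (d : G) y' - y'} := by
  classical
  have : Fintype (G ⧸ D) := Fintype.ofFinite _
  exact kerNormI_h762 (G := D) (fun d => δ (d : G)) (fun g h x => hδ g h x) V
    (fun x : ι × (G ⧸ D) => δ (Quotient.out x.2) (b x.1))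
    (fun x => hVδ _ _ (hbV x.1))
    (fun y hy => basis_restrict_h762 hcomm δ hδ V b hb D hy) hy hN

end Restrict

end Fermat.Agent.S59.TW.Aut.H762
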