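import Fermat.Agent.S59.TW.H653.UqKer
import Fermat.Agent.S59.MFree.H57.Norm
import Fermat.Agent.S41.H581.TransferBasic
import Fermat.Agent.S59.TW.Aut.H762.PCorAbs

/-!
# S59 / cell TW, layer 3 (AUT), leaf CMP part (T), piece PCOR — generic form (helper762)

`χ : (ℤ/M)ˣ →* G`, `K = Γ_{ker χ}(M) = GammaH M χ.ker`, `ker χ ≤ H'`, `K' = GammaH M H'`
(every group between `K` and `Γ₀(M)` is of this form).  Vocabulary of helper653 (`resK`, `coresK`,
`diamondU`, `TK`, `UK`).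

* `kappaSub_h762 χ H' : K' →* χ(H')`, `kerSub_kappaSub_h762 : kerSub (kappaSub χ H') = K`;
* `resK_coresK_h762`      : `res ∘ cor = ∑_{d ∈ χ(H')} ⟨d⟩` on `X_K(A)`;
* `coresK_diamondU_h762`  : `cor ∘ ⟨u⟩ = cor` for `u ∈ H'`;
* `coresK_transfer_h762`, `coresK_TK_gen_h762`, `coresK_UK_gen_h762` : `cor : X_K → X_{K'}`
  commutes with the Hecke operators;
* `coresK_add_h762`, `coresKLin_h762` : `cor` is additive / `𝒪`-linear.
-/

set_option autoImplicit false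

namespace Fermat.Agent.S59.TW.Aut.H762

open CongruenceSubgroup
open Fermat.Agent.S41.Spec Fermat.Agent.S41.H761
open Fermat.Agent.S59.TW.H653 Fermat.Agent.S59.MFree Fermat.Agent.S59.MFree.H587
open scoped MatrixGroups

section Lin

variable {K K' : Subgroup SL(2, ℤ)} (h : K ≤ K')

theorem coresK_add_h762 {A : Type*} [AddCommGroup A] (x y : Additive K →+ A) :
    coresK h (x + y) = coresK h x + coresK h y :=
  Fermat.Agent.S41.H581.transferAlong_add _ x y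

theorem smul_eq_comp'_h762 {𝒪 : Type*} [CommRing 𝒪] {G : Type*} [AddMonoid G] (a : 𝒪)
    (φ : G →+ 𝒪) : a • φ = (AddMonoidHom.mulLeft a).comp φ := by
  ext h
  rfl

/-- `cor : X_K(𝒪) → X_{K'}(𝒪)`, `𝒪`-linear. -/
noncomputable def coresKLin_h762 (𝒪 : Type*) [CommRing 𝒪] :
    (Additive K →+ 𝒪) →ₗ[𝒪] (Additive K' →+ 𝒪) where
  toFun x := coresK h x
  map_add' x y := coresK_add_h762 h x y
  map_smul' a x := by
    rw [RingHom.id_apply, smul_eq_comp'_h762, smul_eq_comp'_h762]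
    exact Fermat.Agent.S41.H581.transferAlong_comp _ (AddMonoidHom.mulLeft a) x

@[simp] theorem coresKLin_h762_apply (𝒪 : Type*) [CommRing 𝒪] (x : Additive K →+ 𝒪) :
    coresKLin_h762 h 𝒪 x = coresK h x := rfl

end Lin

section Kappa

variable {M : ℕ} {G : Type} [Group G] (χ : (ZMod M)ˣ →* G) (H' : Subgroup (ZMod M)ˣ)

/-- `γ ↦ d(γ)`, `Γ_{H'}(M) → H'`. -/
def dSub_h762 : ↥(GammaH M H') →* ↥H' :=
  ((dUnit M).comp (Subgroup.inclusion (GammaH_le M H'))).codRestrict H' (fun γ => by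
    obtain ⟨_, h2⟩ := mem_GammaH.mp γ.2
    exact h2)

@[simp] theorem coe_dSub_h762 (γ : ↥(GammaH M H')) :
    ((dSub_h762 H' γ : ↥H') : (ZMod M)ˣ) = dUnit M ⟨γ, GammaH_le M H' γ.2⟩ := rfl

/-- `κ' : Γ_{H'}(M) → χ(H')`. -/
def kappaSub_h762 : ↥(GammaH M H') →* ↥(H'.map χ) := (χ.subgroupMap H').comp (dSub_h762 H')

@[simp] theorem coe_kappaSub_h762 (γ : ↥(GammaH M H')) :
    ((kappaSub_h762 χ H' γ : ↥(H'.map χ)) : G) = χ (dUnit M ⟨γ, GammaH_le M H' γ.2⟩) := rfl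

theorem kappaSub_eq_one_iff_h762 (γ : ↥(GammaH M H')) :
    kappaSub_h762 χ H' γ = 1 ↔ dUnit M ⟨γ, GammaH_le M H' γ.2⟩ ∈ χ.ker := by
  rw [Subtype.ext_iff, coe_kappaSub_h762, MonoidHom.mem_ker]
  rfl

theorem kerSub_kappaSub_h762 (hH' : χ.ker ≤ H') :
    kerSub (kappaSub_h762 χ H') = GammaH M χ.ker := by
  ext γ
  constructor
  · intro h
    obtain ⟨h1, h2⟩ := mem_kerSub.mp h
    exact mem_GammaH.mpr ⟨GammaH_le M H' h1, (kappaSub_eq_one_iff_h762 χ H' ⟨γ, h1⟩).mp h2⟩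
  · intro h
    obtain ⟨h1, h2⟩ := mem_GammaH.mp h
    have h3 : γ ∈ GammaH M H' := mem_GammaH.mpr ⟨h1, hH' h2⟩
    exact mem_kerSub.mpr ⟨h3, (kappaSub_eq_one_iff_h762 χ H' ⟨γ, h3⟩).mpr h2⟩

/-- The element `σ_u⁻¹ ∈ Γ_{H'}(M)`, `u ∈ H'`. -/
noncomputable def sigmaInv_h762 [NeZero M] (u : (ZMod M)ˣ) (hu : u ∈ H') : ↥(GammaH M H') :=
  ⟨((sigma M (u : ZMod M).val)⁻¹ : Gamma0 M), by
    apply mem_GammaH.mpr
    refine ⟨(sigma M (u : ZMod M).val)⁻¹.2, ?_⟩
    have : dUnit M (sigma M (u : ZMod M).val)⁻¹ = u⁻¹ := by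
      rw [map_inv, dUnit_sigma_val]
    show dUnit M (sigma M (u : ZMod M).val)⁻¹ ∈ H'
    rw [this]
    exact H'.inv_mem hu⟩

theorem kappaSub_sigmaInv_h762 [NeZero M] (u : (ZMod M)ˣ) (hu : u ∈ H') :
    ((kappaSub_h762 χ H' (sigmaInv_h762 H' u hu) : ↥(H'.map χ)) : G) = (χ u)⁻¹ := by
  rw [coe_kappaSub_h762]
  have : dUnit M ⟨(sigmaInv_h762 H' u hu : SL(2, ℤ)), GammaH_le M H' (sigmaInv_h762 H' u hu).2⟩ =
      u⁻¹ := by
    show dUnit M (sigma M (u : ZMod M).val)⁻¹ = u⁻¹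
    rw [map_inv, dUnit_sigma_val]
  rw [this, map_inv]

theorem kappaSub_surjective_h762 [NeZero M] : Function.Surjective (kappaSub_h762 χ H') := by
  rintro ⟨d, u, hu, rfl⟩
  refine ⟨(sigmaInv_h762 H' u hu)⁻¹, ?_⟩
  apply Subtype.ext
  rw [map_inv, Subgroup.coe_inv, kappaSub_sigmaInv_h762, inv_inv]

end Kappa

section Facts

variable {M : ℕ} [NeZero M] {G : Type} [Group G] (χ : (ZMod M)ˣ →* G)
  (H' : Subgroup (ZMod M)ˣ) {A : Type} [AddCommGroup A]

/-- The diamond operator `⟨u⟩`, `u ∈ H'`, on `X_K(A)`, `K = kerSub κ'`, in the vocabulary of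
block M-FREE. -/
theorem diamondU_eq_conjAct_h762 (hK : IsMid M (kerSub (kappaSub_h762 χ H')))
    (u : (ZMod M)ˣ) (hu : u ∈ H') (x : Additive (kerSub (kappaSub_h762 χ H')) →+ A) :
    diamondU hK u x = conjAct (kappaSub_h762 χ H') (sigmaInv_h762 H' u hu) x := by
  refine AddMonoidHom.ext fun k' => ?_
  obtain ⟨k, rfl⟩ : ∃ k : kerSub (kappaSub_h762 χ H'), Additive.ofMul k = k' :=
    ⟨Additive.toMul k', rfl⟩
  unfold diamondU
  rw [conjAct_apply, diamond_apply]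
  congr 2
  apply Subtype.ext
  simp [sigmaInv_h762]

variable [Fintype ↥(H'.map χ)]

/-- **(N1) for `K ≤ K'`**: `res ∘ cor = ∑_{d ∈ χ(H')} ⟨d⟩`. -/
theorem resK_coresK_h762 (K : Subgroup SL(2, ℤ)) (hKeq : K = kerSub (kappaSub_h762 χ H'))
    (hle : K ≤ GammaH M H') (hK : IsMid M K)
    (lift : ↥(H'.map χ) → (ZMod M)ˣ) (hlift : ∀ d, lift d ∈ H' ∧ χ (lift d) = d)
    (x : Additive K →+ A) :
    resK hle (coresK hle x) = ∑ d : ↥(H'.map χ), diamondU hK (lift d) x := by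
  subst hKeq
  let s : ↥(H'.map χ) → ↥(GammaH M H') := Function.surjInv (kappaSub_surjective_h762 χ H')
  have hs : ∀ d, kappaSub_h762 χ H' (s d) = d :=
    Function.surjInv_eq (kappaSub_surjective_h762 χ H')
  have h1 := H57.resCor.{0} (GammaH M H') (↥(H'.map χ)) (kappaSub_h762 χ H') s hs A x
  have h2 : resK hle (coresK hle x) = res (kappaSub_h762 χ H') (cor (kappaSub_h762 χ H') x) := rfl
  rw [h2, h1, ← Equiv.sum_comp (Equiv.inv ↥(H'.map χ))]
  refine Finset.sum_congr rfl fun d _ => ?_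
  rw [diamondU_eq_conjAct_h762 χ H' hK (lift d) (hlift d).1 x]
  apply H57.conjAct_congr57
  apply Subtype.ext
  rw [kappaSub_sigmaInv_h762, (hlift d).2, hs]
  rfl

omit [Fintype ↥(H'.map χ)] in
/-- **(N3) for `K ≤ K'`**: `cor ∘ ⟨u⟩ = cor`, `u ∈ H'`. -/
theorem coresK_diamondU_h762 [Finite G] (K : Subgroup SL(2, ℤ))
    (hKeq : K = kerSub (kappaSub_h762 χ H'))
    (hle : K ≤ GammaH M H') (hK : IsMid M K) (u : (ZMod M)ˣ) (hu : u ∈ H')
    (x : Additive K →+ A) :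
    coresK hle (diamondU hK u x) = coresK hle x := by
  subst hKeq
  rw [diamondU_eq_conjAct_h762 χ H' hK u hu x]
  exact H57.corConj.{0} (GammaH M H') (↥(H'.map χ)) (kappaSub_h762 χ H') _ A x

end Facts

section Hecke

variable {M : ℕ} [NeZero M] {G : Type} [Group G] [Finite G] (χ : (ZMod M)ˣ →* G)
  (H' : Subgroup (ZMod M)ˣ) (hH' : χ.ker ≤ H') {A : Type} [AddCommGroup A]
  {I : Type*} [Fintype I] {ρ : I → GL (Fin 2) ℝ}

include hH' in
/-- **`cor : X_K → X_{K'}` commutes with the transfer of every normalised coset system.** -/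
theorem coresK_transfer_h762 (h₀ : IsCosetSystem (ιN M) (ιN M) ρ)
    (hρ : ∀ i, IsNormRep M (ρ i)) (x : Additive (GammaH M χ.ker) →+ A) :
    coresK (GammaH_mono hH') ((system_of_gamma0 (isMid_GammaH M χ.ker) h₀ hρ).transfer x) =
      (system_of_gamma0 (isMid_GammaH M H') h₀ hρ).transfer (coresK (GammaH_mono hH') x) := by
  set f : ↥(GammaH M χ.ker) →* ↥(GammaH M H') := Subgroup.inclusion (GammaH_mono hH') with hf
  have hfinj : Function.Injective f := Subgroup.inclusion_injective _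
  have hr : ∀ g : ↥(GammaH M H'), g ∈ f.range ↔ kappaSub_h762 χ H' g = 1 := by
    intro g
    rw [kappaSub_eq_one_iff_h762]
    constructor
    · rintro ⟨k, rfl⟩
      obtain ⟨_, h2⟩ := mem_GammaH.mp k.2
      exact h2
    · intro h
      exact ⟨⟨g, mem_GammaH.mpr ⟨GammaH_le M H' g.2, h⟩⟩, rfl⟩
  have hpres : PreservesKappa (system_of_gamma0 (isMid_GammaH M H') h₀ hρ)
      (kappaSub_h762 χ H') := by
    intro i g
    apply Subtype.ext
    rw [coe_kappaSub_h762, coe_kappaSub_h762]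
    congr 1
    have h1 := system_of_gamma0_coc (isMid_GammaH M H') h₀ hρ i g
    have h2 := dUnit_coc h₀ hρ i (inclK (isMid_GammaH M H') g)
    rw [← h1] at h2
    exact h2
  have hfin : f.range.FiniteIndex := by
    have hker : f.range = (kappaSub_h762 χ H').ker := by
      ext g
      rw [hr, MonoidHom.mem_ker]
    rw [hker]
    have : Finite ↥(H'.map χ) := inferInstance
    exact inferInstance
  have key := transferAlong_restrict (system_of_gamma0 (isMid_GammaH M H') h₀ hρ) hpres f hfinj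
    hr x
  rw [← transfer_congr (restrictSystem (system_of_gamma0 (isMid_GammaH M H') h₀ hρ) hpres f
    hfinj hr) (system_of_gamma0 (isMid_GammaH M χ.ker) h₀ hρ)
    (fun _ => rfl) (fun _ => rfl) (fun _ => rfl) x]
  exact key

include hH' in
/-- `cor : X_K → X_{K'}` commutes with `T_ℓ`, `ℓ ∤ M`. -/
theorem coresK_TK_gen_h762 {ℓ : ℕ} [Fact ℓ.Prime] (hℓ : ¬ ℓ ∣ M)
    (x : Additive (GammaH M χ.ker) →+ A) :
    coresK (GammaH_mono hH') (TK M (GammaH M χ.ker) ℓ x) =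
      TK M (GammaH M H') ℓ (coresK (GammaH_mono hH') x) := by
  rw [TK_eq (isMid_GammaH M χ.ker) hℓ, TK_eq (isMid_GammaH M H') hℓ]
  exact coresK_transfer_h762 χ H' hH' (repsT_system0 hℓ) (isNormRep_repsT hℓ) x

include hH' in
/-- `cor : X_K → X_{K'}` commutes with `U_q`, `q ∣ M`. -/
theorem coresK_UK_gen_h762 {q : ℕ} [Fact q.Prime] (hq : q ∣ M)
    (x : Additive (GammaH M χ.ker) →+ A) :
    coresK (GammaH_mono hH') (UK (GammaH M χ.ker) q x) =
      UK (GammaH M H') q (coresK (GammaH_mono hH') x) := by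
  rw [UK_eq (isMid_GammaH M χ.ker) hq, UK_eq (isMid_GammaH M H') hq]
  exact coresK_transfer_h762 χ H' hH' (repsU_system0 hq) (isNormRep_repsU q) x

end Hecke

end Fermat.Agent.S59.TW.Aut.H762
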