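import Fermat.Agent.S59.TW.Aut.Skel
import Fermat.Agent.S59.TW.Aut.H762.Cor
import Fermat.Agent.S59.TW.Aut.H762.PCorGen

/-!
# S59 / cell TW, layer 3 (AUT), leaf CMP part (T), piece PCOR (helper762)

Partial corestriction.  `K_Q = KQ p N₀ qv = Γ_{ker χ_Q}(M_Q)`, `ker χ_Q ≤ H' ≤ (ℤ/M_Q)ˣ`,
`K' = GammaH M_Q H'`.  For `V ⊆ X_{K_Q}(𝒪)` diamond-stable and free over `𝒪[Δ_Q]` (`Aut.FreeAt`):

* `pcor_ker_N0_h762` / `pcor_ker_h762` : for `y ∈ V`,
  `coresK (K_Q ≤ K') y = 0 ↔ y ∈` the additive closure of the `⟨u⟩ y' - y'`, `u ∈ H'`, `y' ∈ V`;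
* `HJ p N₀ qv j` : the subgroup "no condition at `q_j`", `KJ p N₀ qv j = GammaH M_Q (HJ j)`
  (`= Γ₀(N₀ q_j) ∩ Γ_H(Q ∖ q_j)` at the primes of `Q`);
* `pcor_ker_j_h762` : for `y ∈ V`, `coresK (K_Q ≤ K_j) y = 0 ↔ y ∈` the additive closure of the
  `diaQ (Pi.mulSingle j a) y' - y'`;
* `pcor_ker_j_range_h762` : `… ↔ ∃ y' ∈ V, y = diaQ (Pi.mulSingle j a) y' - y'` for a primitive
  root `a` modulo `q_j` (the shape `(X_j - 1) V` of `H314.TwT`).

The Hecke equivariance of `coresK (K_Q ≤ K')` is `coresK_TK_gen_h762`, `coresK_UK_gen_h762`,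
`coresK_diamondU_h762` (file `PCorGen.lean`, with `χ := chi p N₀ qv`).
-/

set_option autoImplicit false

namespace Fermat.Agent.S59.TW.Aut.H762

open CongruenceSubgroup
open Fermat.Agent.S59.Arch Fermat.Agent.S59.TW.H653 Fermat.Agent.S59.MFree
open Fermat.Agent.S59.TW.Aut
open scoped MatrixGroups

section Dia

variable (p N₀ : ℕ) {r : ℕ} (qv : Fin r → ℕ)

theorem chi_surjective_h762 (hsurj : Function.Surjective (red N₀ qv)) :
    Function.Surjective (chi p N₀ qv) := by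
  intro d
  obtain ⟨a, rfl⟩ := QuotientGroup.mk_surjective d
  obtain ⟨u, rfl⟩ := hsurj a
  exact ⟨u, rfl⟩

theorem chi_liftU_h762 (hsurj : Function.Surjective (red N₀ qv))
    (a : ∀ j : Fin r, (ZMod (qv j))ˣ) :
    chi p N₀ qv (liftU N₀ qv a) = QuotientGroup.mk a := by
  rw [chi_apply_h762, red_liftU N₀ qv (hsurj a)]

/-- `⟨u⟩ = ⟨liftU (red u)⟩` on `X_{K_Q}`. -/
theorem diamondU_eq_liftU_red_h762 [NeZero (bLevel N₀ qv)]
    (hsurj : Function.Surjective (red N₀ qv)) {A : Type} [AddCommGroup A]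
    (u : (ZMod (bLevel N₀ qv))ˣ) (x : Additive (KQ p N₀ qv) →+ A) :
    diamondU (isMid_KQ p N₀ qv) u x =
      diamondU (isMid_KQ p N₀ qv) (liftU N₀ qv (red N₀ qv u)) x := by
  apply diamondU_eq_of_chi
  rw [chi_liftU_h762 p N₀ qv hsurj, chi_apply_h762]

end Dia

section Main

variable {p : ℕ} [hp : Fact p.Prime] (N₀ : ℕ) [hN₀ : NeZero N₀] {r : ℕ} (qv : Fin r → ℕ)
  (hprime : ∀ j, (qv j).Prime) (hinj : Function.Injective qv)
  (𝒪 : Type) [CommRing 𝒪] [IsDomain 𝒪] [CharZero 𝒪]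
  (H' : Subgroup (ZMod (bLevel N₀ qv))ˣ) (hH' : (chi p N₀ qv).ker ≤ H')

omit [IsDomain 𝒪] [CharZero 𝒪] in
include hp hN₀ hprime hinj hH' in
/-- **PCOR**, for every `N₀ ≠ 0` and every `H' ⊇ ker χ_Q`. -/
theorem pcor_ker_N0_h762
    (V : Submodule 𝒪 (Additive (KQ p N₀ qv) →+ 𝒪))
    (hVdia : ∀ (a : ∀ j : Fin r, (ZMod (qv j))ˣ), ∀ x ∈ V,
      diamondU (isMid_KQ p N₀ qv) (liftU N₀ qv a) x ∈ V)
    (hfree : ∀ g : ∀ j : Fin r, (ZMod (qv j))ˣ, (∀ j, orderOf (g j) = qv j - 1) →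
      ∃ (d : ℕ) (b : Fin d → V), ∀ y : V,
        ∃! c : Fin d → (∀ j : Fin r, Fin (p ^ padicValNat p (qv j - 1))) → 𝒪,
          (y : Additive (KQ p N₀ qv) →+ 𝒪) =
            ∑ i, ∑ e, c i e •
              diamondU (isMid_KQ p N₀ qv) (liftU N₀ qv (fun j => g j ^ (e j : ℕ))) (b i))
    {y : Additive (KQ p N₀ qv) →+ 𝒪} (hy : y ∈ V) :
    coresK (GammaH_mono hH' : KQ p N₀ qv ≤ GammaH (bLevel N₀ qv) H') y = 0 ↔
      y ∈ AddSubgroup.closure {z : Additive (KQ p N₀ qv) →+ 𝒪 |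
        ∃ u ∈ H', ∃ y' ∈ V, z = diamondU (isMid_KQ p N₀ qv) u y' - y'} := by
  classical
  have hM : NeZero (bLevel N₀ qv) := neZero_bLevel_h762 N₀ qv hprime
  have hsurj := red_surjective N₀ qv (NeZero.ne N₀) hinj hprime
  have hχ := chi_surjective_h762 p N₀ qv hsurj
  have hNZ : ∀ j, NeZero (qv j) := fun j => ⟨(hprime j).ne_zero⟩
  have hfin : Finite (Delta p qv) := inferInstance
  let _ : Fintype (Delta p qv) := Fintype.ofFinite _
  let _ : Fintype ↥(H'.map (chi p N₀ qv)) := Fintype.ofFinite _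
  have hKeq : KQ p N₀ qv = kerSub (kappaSub_h762 (G := Delta p qv) (chi p N₀ qv) H') :=
    (kerSub_kappaSub_h762 (G := Delta p qv) (chi p N₀ qv) H' hH').symm
  let lift : Delta p qv → (ZMod (bLevel N₀ qv))ˣ := Function.surjInv hχ
  have hlift : ∀ d, chi p N₀ qv (lift d) = d := Function.surjInv_eq hχ
  have hliftH : ∀ d : ↥(H'.map (chi p N₀ qv)), lift (d : Delta p qv) ∈ H' := by
    rintro ⟨d, u, hu, rfl⟩
    have h1 : (lift (chi p N₀ qv u)) * u⁻¹ ∈ (chi p N₀ qv).ker := by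
      rw [MonoidHom.mem_ker, map_mul, hlift, map_inv, mul_inv_cancel]
    have h2 := H'.mul_mem (hH' h1) hu
    rwa [inv_mul_cancel_right] at h2
  -- stability under all diamond operators
  have hVall : ∀ (u : (ZMod (bLevel N₀ qv))ˣ), ∀ x ∈ V,
      diamondU (isMid_KQ p N₀ qv) u x ∈ V := by
    intro u x hx
    rw [diamondU_eq_liftU_red_h762 p N₀ qv hsurj u x]
    exact hVdia _ x hx
  constructor
  · intro h
    -- the action of `Δ_Q`
    let δ : Delta p qv → (Additive (KQ p N₀ qv) →+ 𝒪) →ₗ[𝒪] (Additive (KQ p N₀ qv) →+ 𝒪) :=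
      fun d =>
        { toFun := fun x => diamondU (isMid_KQ p N₀ qv) (lift d) x
          map_add' := fun _ _ => rfl
          map_smul' := fun _ _ => rfl }
    have hδapp : ∀ d x, δ d x = diamondU (isMid_KQ p N₀ qv) (lift d) x := fun _ _ => rfl
    have hδ : ∀ g h x, δ g (δ h x) = δ (g * h) x := by
      intro g h x
      rw [hδapp, hδapp, hδapp, ← diamondU_mul]
      apply diamondU_eq_of_chi
      rw [map_mul, hlift, hlift, hlift]
    obtain ⟨g, hg⟩ := exists_primitive_roots qv hprime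
    obtain ⟨d, b, hb⟩ := hfree g hg
    have hb' : ∀ y ∈ V, ∃! c : Fin d → Delta p qv → 𝒪,
        y = ∑ i, ∑ g', c i g' • δ g' ((b i : V) : Additive (KQ p N₀ qv) →+ 𝒪) := by
      intro y hy
      have h1 := hb ⟨y, hy⟩
      have h2 : ∀ (e : ∀ j : Fin r, Fin (p ^ padicValNat p (qv j - 1))) (i : Fin d),
          diamondU (isMid_KQ p N₀ qv) (liftU N₀ qv (fun j => g j ^ (e j : ℕ)))
            ((b i : V) : Additive (KQ p N₀ qv) →+ 𝒪) =
          δ (epsIdx p qv g e) ((b i : V) : Additive (KQ p N₀ qv) →+ 𝒪) := by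
        intro e i
        rw [hδapp]
        apply diamondU_eq_of_chi
        rw [hlift, chi_liftU_h762 p N₀ qv hsurj]
        rfl
      simp only [h2] at h1
      exact basis_transport_h762 δ (epsIdx p qv g) (epsIdx_bijective p qv hprime g hg)
        (fun i => ((b i : V) : Additive (KQ p N₀ qv) →+ 𝒪)) h1
    have hN : ∑ d' : ↥(H'.map (chi p N₀ qv)), δ (d' : Delta p qv) y = 0 := by
      have h3 := resK_coresK_h762 (G := Delta p qv) (chi p N₀ qv) H' (KQ p N₀ qv) hKeq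
        (GammaH_mono hH') (isMid_KQ p N₀ qv) (fun d' => lift (d' : Delta p qv))
        (fun d' => ⟨hliftH d', hlift _⟩) y
      have e0 : resK (GammaH_mono hH' : KQ p N₀ qv ≤ GammaH (bLevel N₀ qv) H')
          (coresK (GammaH_mono hH' : KQ p N₀ qv ≤ GammaH (bLevel N₀ qv) H') y) = 0 :=
        (congrArg (resK (GammaH_mono hH' : KQ p N₀ qv ≤ GammaH (bLevel N₀ qv) H')) h).trans rfl
      exact h3.symm.trans e0
    have h4 := ker_norm_sub_h762 (fun a b => mul_comm a b) δ hδ V (fun g x hx => hVall _ x hx)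
      (fun i => ((b i : V) : Additive (KQ p N₀ qv) →+ 𝒪)) (fun i => (b i).2) hb'
      (H'.map (chi p N₀ qv)) hy hN
    refine AddSubgroup.closure_mono ?_ h4
    rintro z ⟨d', y', hy', rfl⟩
    exact ⟨lift (d' : Delta p qv), hliftH d', y', hy', rfl⟩
  · intro h
    clear hy
    induction h using AddSubgroup.closure_induction with
    | mem z hz =>
      obtain ⟨u, hu, y', -, rfl⟩ := hz
      have h5 := coresK_diamondU_h762 (G := Delta p qv) (chi p N₀ qv) H' (KQ p N₀ qv) hKeq (GammaH_mono hH')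
        (isMid_KQ p N₀ qv) u hu y'
      have h6 : coresK (GammaH_mono hH' : KQ p N₀ qv ≤ GammaH (bLevel N₀ qv) H')
          (diamondU (isMid_KQ p N₀ qv) u y' - y') =
          coresK (GammaH_mono hH') (diamondU (isMid_KQ p N₀ qv) u y') -
            coresK (GammaH_mono hH') y' :=
        map_sub (coresKLin_h762 (GammaH_mono hH' : KQ p N₀ qv ≤ GammaH (bLevel N₀ qv) H') 𝒪)
          _ _
      exact h6.trans (sub_eq_zero.mpr h5)
    | zero => exact map_zero (coresKLin_h762 (GammaH_mono hH') 𝒪)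
    | add a b _ _ ha hb =>
      have h7 : coresK (GammaH_mono hH' : KQ p N₀ qv ≤ GammaH (bLevel N₀ qv) H') (a + b) =
          coresK (GammaH_mono hH') a + coresK (GammaH_mono hH') b :=
        map_add (coresKLin_h762 (GammaH_mono hH' :
          KQ p N₀ qv ≤ GammaH (bLevel N₀ qv) H') 𝒪) a b
      exact h7.trans ((congrArg₂ (· + ·) ha hb).trans (add_zero 0))
    | neg a _ ha =>
      have h8 : coresK (GammaH_mono hH' : KQ p N₀ qv ≤ GammaH (bLevel N₀ qv) H') (-a) =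
          -coresK (GammaH_mono hH') a :=
        map_neg (coresKLin_h762 (GammaH_mono hH' :
          KQ p N₀ qv ≤ GammaH (bLevel N₀ qv) H') 𝒪) a
      exact h8.trans ((congrArg Neg.neg ha).trans neg_zero)

end Main

section J

variable (p N₀ : ℕ) {r : ℕ} (qv : Fin r → ℕ)

/-- The subgroup "no condition at `q_j`" of `(ℤ/M_Q)ˣ`: the `u` which are `p^{m_i}`-th powers
modulo `q_i` for every `i ≠ j`. -/
def HJ (j : Fin r) : Subgroup (ZMod (bLevel N₀ qv))ˣ :=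
  (Subgroup.pi {i | i ≠ j} fun i =>
    (powMonoidHom (p ^ padicValNat p (qv i - 1)) : (ZMod (qv i))ˣ →* (ZMod (qv i))ˣ).range).comap
    (red N₀ qv)

theorem mem_HJ {j : Fin r} {u : (ZMod (bLevel N₀ qv))ˣ} :
    u ∈ HJ p N₀ qv j ↔
      ∀ i, i ≠ j → ∃ v : (ZMod (qv i))ˣ, v ^ (p ^ padicValNat p (qv i - 1)) = red N₀ qv u i := by
  unfold HJ
  rw [Subgroup.mem_comap, Subgroup.mem_pi]
  constructor
  · intro h i hi
    obtain ⟨v, hv⟩ := h i hi
    exact ⟨v, hv⟩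
  · intro h i hi
    obtain ⟨v, hv⟩ := h i hi
    exact ⟨v, hv⟩

/-- `K_j = Γ₀(M_Q) ∩ Γ_H(Q ∖ q_j)`. -/
def KJ (j : Fin r) : Subgroup SL(2, ℤ) := GammaH (bLevel N₀ qv) (HJ p N₀ qv j)

theorem ker_chi_le_HJ (j : Fin r) : (chi p N₀ qv).ker ≤ HJ p N₀ qv j := by
  intro u hu
  rw [MonoidHom.mem_ker, chi_apply_h762, QuotientGroup.eq_one_iff, mem_powSub_iff] at hu
  exact (mem_HJ p N₀ qv).mpr fun i _ => hu i

theorem KQ_le_KJ (j : Fin r) : KQ p N₀ qv ≤ KJ p N₀ qv j :=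
  GammaH_mono (ker_chi_le_HJ p N₀ qv j)

theorem isMid_KJ (j : Fin r) : IsMid (bLevel N₀ qv) (KJ p N₀ qv j) := isMid_GammaH _ _

theorem liftU_mulSingle_mem_HJ
    (hsurj : Function.Surjective (red N₀ qv)) (j : Fin r)
    (a : (ZMod (qv j))ˣ) : liftU N₀ qv (Pi.mulSingle j a) ∈ HJ p N₀ qv j := by
  refine (mem_HJ p N₀ qv).mpr fun i hi => ⟨1, ?_⟩
  rw [red_liftU N₀ qv (hsurj _), Pi.mulSingle_eq_of_ne hi, one_pow]

/-- On `X_{K_Q}`, `⟨u⟩ = ⟨(red u)_j⟩_j` for `u ∈ H_j`. -/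
theorem diamondU_eq_mulSingle_h762 [NeZero (bLevel N₀ qv)]
    (hsurj : Function.Surjective (red N₀ qv)) {A : Type} [AddCommGroup A] (j : Fin r)
    {u : (ZMod (bLevel N₀ qv))ˣ} (hu : u ∈ HJ p N₀ qv j) (x : Additive (KQ p N₀ qv) →+ A) :
    diamondU (isMid_KQ p N₀ qv) u x =
      diamondU (isMid_KQ p N₀ qv) (liftU N₀ qv (Pi.mulSingle j (red N₀ qv u j))) x := by
  apply diamondU_eq_of_chi
  rw [chi_liftU_h762 p N₀ qv hsurj, chi_apply_h762, QuotientGroup.eq, mem_powSub_iff]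
  intro i
  by_cases hi : i = j
  · subst hi
    refine ⟨1, ?_⟩
    rw [one_pow, Pi.mul_apply, Pi.inv_apply, Pi.mulSingle_eq_same, inv_mul_cancel]
  · obtain ⟨v, hv⟩ := (mem_HJ p N₀ qv).mp hu i hi
    refine ⟨v⁻¹, ?_⟩
    rw [inv_pow, hv, Pi.mul_apply, Pi.inv_apply, Pi.mulSingle_eq_of_ne hi, mul_one]

theorem dia_one_h762 [NeZero (bLevel N₀ qv)] {A : Type} [AddCommGroup A]
    (x : Additive (KQ p N₀ qv) →+ A) :
    diamondU (isMid_KQ p N₀ qv) (liftU N₀ qv 1) x = x := by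
  apply diamondU_of_chi
  have h1 := red_liftU N₀ qv (a := 1) ⟨1, map_one _⟩
  rw [chi_apply_h762, h1]
  rfl

theorem dia_mul_h762 [NeZero (bLevel N₀ qv)] (hsurj : Function.Surjective (red N₀ qv))
    {A : Type} [AddCommGroup A] (u u' : ∀ j : Fin r, (ZMod (qv j))ˣ)
    (x : Additive (KQ p N₀ qv) →+ A) :
    diamondU (isMid_KQ p N₀ qv) (liftU N₀ qv (u * u')) x =
      diamondU (isMid_KQ p N₀ qv) (liftU N₀ qv u)
        (diamondU (isMid_KQ p N₀ qv) (liftU N₀ qv u') x) := by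
  rw [← diamondU_mul]
  apply diamondU_eq_of_chi
  apply chi_eq_of_red
  rw [map_mul, red_liftU _ _ (hsurj u), red_liftU _ _ (hsurj u'), red_liftU _ _ (hsurj (u * u'))]

theorem dia_pow_h762 [NeZero (bLevel N₀ qv)] (hsurj : Function.Surjective (red N₀ qv))
    {A : Type} [AddCommGroup A] (u : ∀ j : Fin r, (ZMod (qv j))ˣ) (k : ℕ)
    (x : Additive (KQ p N₀ qv) →+ A) :
    diamondU (isMid_KQ p N₀ qv) (liftU N₀ qv (u ^ k)) x =
      (diamondU (isMid_KQ p N₀ qv) (liftU N₀ qv u))^[k] x := by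
  induction k with
  | zero => rw [pow_zero, dia_one_h762, Function.iterate_zero_apply]
  | succ k ih =>
    rw [pow_succ', dia_mul_h762 p N₀ qv hsurj, ih, Function.iterate_succ_apply']

end J

section JMain

variable {p : ℕ} [hp : Fact p.Prime] (N₀ : ℕ) [hN₀ : NeZero N₀] {r : ℕ} (qv : Fin r → ℕ)
  (hprime : ∀ j, (qv j).Prime) (hinj : Function.Injective qv)
  (𝒪 : Type) [CommRing 𝒪]

include hp hN₀ hprime hinj in
/-- **PCOR at `q_j`**: the kernel of `cor : V → X_{K_j}` is the additive closure of the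
`⟨a⟩_j y' - y'`. -/
theorem pcor_ker_j_N0_h762 (j : Fin r)
    (V : Submodule 𝒪 (Additive (KQ p N₀ qv) →+ 𝒪))
    (hVdia : ∀ (a : ∀ j : Fin r, (ZMod (qv j))ˣ), ∀ x ∈ V,
      diamondU (isMid_KQ p N₀ qv) (liftU N₀ qv a) x ∈ V)
    (hfree : ∀ g : ∀ j : Fin r, (ZMod (qv j))ˣ, (∀ j, orderOf (g j) = qv j - 1) →
      ∃ (d : ℕ) (b : Fin d → V), ∀ y : V,
        ∃! c : Fin d → (∀ j : Fin r, Fin (p ^ padicValNat p (qv j - 1))) → 𝒪,
          (y : Additive (KQ p N₀ qv) →+ 𝒪) =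
            ∑ i, ∑ e, c i e •
              diamondU (isMid_KQ p N₀ qv) (liftU N₀ qv (fun j => g j ^ (e j : ℕ))) (b i))
    {y : Additive (KQ p N₀ qv) →+ 𝒪} (hy : y ∈ V) :
    coresK (KQ_le_KJ p N₀ qv j) y = 0 ↔
      y ∈ AddSubgroup.closure {z : Additive (KQ p N₀ qv) →+ 𝒪 |
        ∃ (a : (ZMod (qv j))ˣ), ∃ y' ∈ V,
          z = diamondU (isMid_KQ p N₀ qv) (liftU N₀ qv (Pi.mulSingle j a)) y' - y'} := by
  have hM : NeZero (bLevel N₀ qv) := neZero_bLevel_h762 N₀ qv hprime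
  have hsurj := red_surjective N₀ qv (NeZero.ne N₀) hinj hprime
  have h1 := pcor_ker_N0_h762 N₀ qv hprime hinj 𝒪 (HJ p N₀ qv j) (ker_chi_le_HJ p N₀ qv j)
    V hVdia hfree hy
  have hset : {z : Additive (KQ p N₀ qv) →+ 𝒪 |
      ∃ u ∈ HJ p N₀ qv j, ∃ y' ∈ V, z = diamondU (isMid_KQ p N₀ qv) u y' - y'} =
      {z : Additive (KQ p N₀ qv) →+ 𝒪 | ∃ (a : (ZMod (qv j))ˣ), ∃ y' ∈ V,
          z = diamondU (isMid_KQ p N₀ qv) (liftU N₀ qv (Pi.mulSingle j a)) y' - y'} := by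
    ext z
    constructor
    · rintro ⟨u, hu, y', hy', rfl⟩
      exact ⟨red N₀ qv u j, y', hy',
        congrArg (fun w => w - y') (diamondU_eq_mulSingle_h762 p N₀ qv hsurj j hu y')⟩
    · rintro ⟨a, y', hy', rfl⟩
      exact ⟨_, liftU_mulSingle_mem_HJ p N₀ qv hsurj j a, y', hy', rfl⟩
  rw [← hset]
  exact h1

include hp hN₀ hprime hinj in
/-- **PCOR at `q_j`, range form**: for a primitive root `a` modulo `q_j`, the kernel of
`cor : V → X_{K_j}` is `(⟨a⟩_j - 1) V`. -/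
theorem pcor_ker_j_range_N0_h762 (j : Fin r)
    (V : Submodule 𝒪 (Additive (KQ p N₀ qv) →+ 𝒪))
    (hVdia : ∀ (a : ∀ j : Fin r, (ZMod (qv j))ˣ), ∀ x ∈ V,
      diamondU (isMid_KQ p N₀ qv) (liftU N₀ qv a) x ∈ V)
    (hfree : ∀ g : ∀ j : Fin r, (ZMod (qv j))ˣ, (∀ j, orderOf (g j) = qv j - 1) →
      ∃ (d : ℕ) (b : Fin d → V), ∀ y : V,
        ∃! c : Fin d → (∀ j : Fin r, Fin (p ^ padicValNat p (qv j - 1))) → 𝒪,
          (y : Additive (KQ p N₀ qv) →+ 𝒪) =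
            ∑ i, ∑ e, c i e •
              diamondU (isMid_KQ p N₀ qv) (liftU N₀ qv (fun j => g j ^ (e j : ℕ))) (b i))
    (a : (ZMod (qv j))ˣ) (ha : orderOf a = qv j - 1)
    {y : Additive (KQ p N₀ qv) →+ 𝒪} (hy : y ∈ V) :
    coresK (KQ_le_KJ p N₀ qv j) y = 0 ↔
      ∃ y' ∈ V, y = diamondU (isMid_KQ p N₀ qv) (liftU N₀ qv (Pi.mulSingle j a)) y' - y' := by
  have hM : NeZero (bLevel N₀ qv) := neZero_bLevel_h762 N₀ qv hprime
  have hsurj := red_surjective N₀ qv (NeZero.ne N₀) hinj hprime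
  rw [pcor_ker_j_N0_h762 N₀ qv hprime hinj 𝒪 j V hVdia hfree hy]
  set X : (Additive (KQ p N₀ qv) →+ 𝒪) → (Additive (KQ p N₀ qv) →+ 𝒪) :=
    diamondU (isMid_KQ p N₀ qv) (liftU N₀ qv (Pi.mulSingle j a)) with hX
  have hXadd : ∀ x y, X (x + y) = X x + X y := fun _ _ => rfl
  have hXV : ∀ x ∈ V, X x ∈ V := fun x hx => hVdia _ x hx
  have hXVk : ∀ (k : ℕ), ∀ x ∈ V, X^[k] x ∈ V := by
    intro k
    induction k with
    | zero => exact fun x hx => hx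
    | succ k ih =>
      intro x hx
      rw [Function.iterate_succ_apply']
      exact hXV _ (ih x hx)
  have htel : ∀ (k : ℕ), ∀ x ∈ V, ∃ z ∈ V, X^[k] x - x = X z - z := by
    intro k
    induction k with
    | zero =>
      intro x _
      refine ⟨0, V.zero_mem, ?_⟩
      rw [Function.iterate_zero_apply, sub_self]
      show (0 : Additive (KQ p N₀ qv) →+ 𝒪) = X 0 - 0
      rw [sub_zero]
      rfl
    | succ k ih =>
      intro x hx
      obtain ⟨z, hz, e⟩ := ih x hx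
      refine ⟨X^[k] x + z, V.add_mem (hXVk k x hx) hz, ?_⟩
      rw [Function.iterate_succ_apply', hXadd]
      have : X (X^[k] x) - x = (X (X^[k] x) - X^[k] x) + (X^[k] x - x) := by abel
      rw [this, e]
      abel
  constructor
  · intro h
    clear hy
    induction h using AddSubgroup.closure_induction with
    | mem z hz =>
      obtain ⟨a', y', hy', rfl⟩ := hz
      obtain ⟨k, rfl⟩ := exists_pow_eq_of_orderOf (hprime j) ha a'
      have h2 : diamondU (isMid_KQ p N₀ qv) (liftU N₀ qv (Pi.mulSingle j (a ^ k))) y' =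
          X^[k] y' := by
        rw [Pi.mulSingle_pow, dia_pow_h762 p N₀ qv hsurj]
      rw [h2]
      exact htel k y' hy'
    | zero =>
      refine ⟨0, V.zero_mem, ?_⟩
      show (0 : Additive (KQ p N₀ qv) →+ 𝒪) = X 0 - 0
      rw [sub_zero]
      rfl
    | add x₁ x₂ _ _ h₁ h₂ =>
      obtain ⟨z₁, hz₁, e₁⟩ := h₁
      obtain ⟨z₂, hz₂, e₂⟩ := h₂
      refine ⟨z₁ + z₂, V.add_mem hz₁ hz₂, ?_⟩
      rw [e₁, e₂, hXadd]
      abel
    | neg x₁ _ h₁ =>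
      obtain ⟨z₁, hz₁, e₁⟩ := h₁
      refine ⟨-z₁, V.neg_mem hz₁, ?_⟩
      rw [e₁]
      have : X (-z₁) = -X z₁ := rfl
      rw [this]
      abel
  · rintro ⟨y', hy', rfl⟩
    exact AddSubgroup.subset_closure ⟨a, y', hy', rfl⟩

end JMain

section SpecJ

variable {p : ℕ} [hp : Fact p.Prime] (t : PType) (Smin : Finset ℕ)
  [hN₀ : NeZero (wilesLevel p t Smin Smin)] {r : ℕ} (qv : Fin r → ℕ)
  (hprime : ∀ j, (qv j).Prime) (hinj : Function.Injective qv)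
  (𝒪 : Type) [CommRing 𝒪]

include hp hN₀ hprime hinj in
/-- **PCOR** in the vocabulary of `Aut/Spec.lean`, any `H' ⊇ ker χ_Q`. -/
theorem pcor_ker_h762 (H' : Subgroup (ZMod (bLevel (wilesLevel p t Smin Smin) qv))ˣ)
    (hH' : (chi p (wilesLevel p t Smin Smin) qv).ker ≤ H')
    (V : Submodule 𝒪 (XQ p t Smin qv 𝒪))
    (hVdia : ∀ (a : ∀ j : Fin r, (ZMod (qv j))ˣ), ∀ x ∈ V, diaQ p t Smin qv 𝒪 a x ∈ V)
    (hfree : FreeAt V) {y : XQ p t Smin qv 𝒪} (hy : y ∈ V) :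
    coresK (GammaH_mono hH' : KQ p (wilesLevel p t Smin Smin) qv ≤
        GammaH (bLevel (wilesLevel p t Smin Smin) qv) H') y = 0 ↔
      y ∈ AddSubgroup.closure {z : XQ p t Smin qv 𝒪 |
        ∃ u ∈ H', ∃ y' ∈ V,
          z = diamondU (isMid_KQ p (wilesLevel p t Smin Smin) qv) u y' - y'} :=
  pcor_ker_N0_h762 (wilesLevel p t Smin Smin) qv hprime hinj 𝒪 H' hH' V hVdia hfree hy

include hp hN₀ hprime hinj in
/-- **PCOR at `q_j`** in the vocabulary of `Aut/Spec.lean`. -/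
theorem pcor_ker_j_h762 (j : Fin r)
    (V : Submodule 𝒪 (XQ p t Smin qv 𝒪))
    (hVdia : ∀ (a : ∀ j : Fin r, (ZMod (qv j))ˣ), ∀ x ∈ V, diaQ p t Smin qv 𝒪 a x ∈ V)
    (hfree : FreeAt V) {y : XQ p t Smin qv 𝒪} (hy : y ∈ V) :
    coresK (KQ_le_KJ p (wilesLevel p t Smin Smin) qv j) y = 0 ↔
      y ∈ AddSubgroup.closure {z : XQ p t Smin qv 𝒪 |
        ∃ (a : (ZMod (qv j))ˣ), ∃ y' ∈ V,
          z = diaQ p t Smin qv 𝒪 (Pi.mulSingle j a) y' - y'} :=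
  pcor_ker_j_N0_h762 (wilesLevel p t Smin Smin) qv hprime hinj 𝒪 j V hVdia hfree hy

include hp hN₀ hprime hinj in
/-- **PCOR at `q_j`, range form** (the shape `(X_j - 1) V` of `H314.TwT`). -/
theorem pcor_ker_j_range_h762 (j : Fin r)
    (V : Submodule 𝒪 (XQ p t Smin qv 𝒪))
    (hVdia : ∀ (a : ∀ j : Fin r, (ZMod (qv j))ˣ), ∀ x ∈ V, diaQ p t Smin qv 𝒪 a x ∈ V)
    (hfree : FreeAt V) (a : (ZMod (qv j))ˣ) (ha : orderOf a = qv j - 1)
    {y : XQ p t Smin qv 𝒪} (hy : y ∈ V) :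
    coresK (KQ_le_KJ p (wilesLevel p t Smin Smin) qv j) y = 0 ↔
      ∃ y' ∈ V, y = diaQ p t Smin qv 𝒪 (Pi.mulSingle j a) y' - y' :=
  pcor_ker_j_range_N0_h762 (wilesLevel p t Smin Smin) qv hprime hinj 𝒪 j V hVdia hfree a ha hy

end SpecJ

section EquivJ

variable (p : ℕ) (N₀ : ℕ) [hN₀ : NeZero N₀] {r : ℕ} (qv : Fin r → ℕ)
  (hprime : ∀ j, (qv j).Prime) {A : Type} [AddCommGroup A]

include hN₀ hprime in
/-- `cor : X_{K_Q} → X_{K_j}` commutes with `T_ℓ`, `ℓ ∤ M_Q`. -/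
theorem coresK_j_TK_h762 (j : Fin r) {ℓ : ℕ} [Fact ℓ.Prime] (hℓ : ¬ ℓ ∣ bLevel N₀ qv)
    (x : Additive (KQ p N₀ qv) →+ A) :
    coresK (KQ_le_KJ p N₀ qv j) (TK (bLevel N₀ qv) (KQ p N₀ qv) ℓ x) =
      TK (bLevel N₀ qv) (KJ p N₀ qv j) ℓ (coresK (KQ_le_KJ p N₀ qv j) x) := by
  have hM : NeZero (bLevel N₀ qv) := neZero_bLevel_h762 N₀ qv hprime
  have hNZ : ∀ j, NeZero (qv j) := fun j => ⟨(hprime j).ne_zero⟩
  have hfin : Finite (Delta p qv) := inferInstance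
  exact coresK_TK_gen_h762 (G := Delta p qv) (chi p N₀ qv) (HJ p N₀ qv j)
    (ker_chi_le_HJ p N₀ qv j) hℓ x

include hN₀ hprime in
/-- `cor : X_{K_Q} → X_{K_j}` commutes with `U_q`, `q ∣ M_Q`. -/
theorem coresK_j_UK_h762 (j : Fin r) {q : ℕ} [Fact q.Prime] (hq : q ∣ bLevel N₀ qv)
    (x : Additive (KQ p N₀ qv) →+ A) :
    coresK (KQ_le_KJ p N₀ qv j) (UK (KQ p N₀ qv) q x) =
      UK (KJ p N₀ qv j) q (coresK (KQ_le_KJ p N₀ qv j) x) := by
  have hM : NeZero (bLevel N₀ qv) := neZero_bLevel_h762 N₀ qv hprime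
  have hNZ : ∀ j, NeZero (qv j) := fun j => ⟨(hprime j).ne_zero⟩
  have hfin : Finite (Delta p qv) := inferInstance
  exact coresK_UK_gen_h762 (G := Delta p qv) (chi p N₀ qv) (HJ p N₀ qv j)
    (ker_chi_le_HJ p N₀ qv j) hq x

include hN₀ hprime in
/-- `cor : X_{K_Q} → X_{K_j}` commutes with `tOp ℓ`, `ℓ ∤ M_Q` (𝒪-coefficients). -/
theorem coresK_j_tOp_h762 (𝒪 : Type) [CommRing 𝒪] (j : Fin r) (ℓ : ℕ) (hℓ : ℓ.Prime)
    (hℓM : ¬ ℓ ∣ bLevel N₀ qv) (x : Additive (KQ p N₀ qv) →+ 𝒪) :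
    coresK (KQ_le_KJ p N₀ qv j) (tOp (bLevel N₀ qv) (KQ p N₀ qv) 𝒪 ℓ hℓ x) =
      tOp (bLevel N₀ qv) (KJ p N₀ qv j) 𝒪 ℓ hℓ (coresK (KQ_le_KJ p N₀ qv j) x) := by
  have : Fact ℓ.Prime := ⟨hℓ⟩
  exact coresK_j_TK_h762 p N₀ qv hprime j hℓM x

end EquivJ

end Fermat.Agent.S59.TW.Aut.H762
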