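import Fermat.Agent.S59.TW.Aut.H762.PCor
import Fermat.Agent.S41.H863.TransferNatural

/-!
# S59 / cell TW, layer 3 (AUT), leaf CMP, DICT-T: the `K'`-descent (helper762)

`K_Q ≤ K' = GammaH M_Q H'` (`ker χ_Q ≤ H'`), in particular `K' = K_j = KJ p N₀ qv j`.

* `coresK_diamond_h762`, `coresK_diamondU_comm_h762`, `resK_diamond_h762`, `resK_diamondU_h762` :
  `cor` and `res` commute with the diamond operators (any `K ≤ K'`, both `IsMid M`);
* `coresK_tOpTw_gen_h762`, `resK_tOpTw_gen_h762`, `coresK_j_tOpTw_h762`, `resK_j_tOpTw_h762` :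
  `cor` and `res` commute with `⟨ℓ⟩^h T_ℓ`;
* `resK_coresK_fixed_h762`, `resK_coresK_j_h762` : `res (cor y) = n • y` if `y` is fixed by the
  `⟨u⟩`, `u ∈ H'` (resp. by `⟨a⟩_j` for ONE primitive root `a` modulo `q_j`), `n = |χ(H')| ≠ 0`;
* `coresK_resK_gen_h762`, `coresK_resK_j_h762` : `cor (res z) = n • z`;
* `resK_fixed_gen_h762`, `resK_j_fixed_h762` : `res z` is fixed by the `⟨u⟩`, `u ∈ H'`;
* `coresK_j_ne_zero_h762` : `cor y ≠ 0` for `y ≠ 0` fixed (characteristic `0`);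
* `coresK_j_eig_tOpTw_h762`, `coresK_j_eig_UK_h762` : `cor` maps eigenvectors to eigenvectors.
-/

set_option autoImplicit false

namespace Fermat.Agent.S59.TW.Aut.H762

open CongruenceSubgroup
open Fermat.Agent.S59.Arch Fermat.Agent.S59.TW.H653 Fermat.Agent.S59.MFree
open Fermat.Agent.S59.TW.Aut
open scoped MatrixGroups

section Gen

variable {M : ℕ} {K K' : Subgroup SL(2, ℤ)} {A : Type*} [AddCommGroup A]

/-- `cor : X_K → X_{K'}` commutes with the diamond operators. -/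
theorem coresK_diamond_h762 (hK : IsMid M K) (hK' : IsMid M K') (h : K ≤ K') (g : Gamma0 M)
    (x : Additive K →+ A) :
    coresK h (diamond hK g x) = diamond hK' g (coresK h x) := by
  refine AddMonoidHom.ext fun k' => ?_
  obtain ⟨k, rfl⟩ : ∃ k : K', Additive.ofMul k = k' := ⟨Additive.toMul k', rfl⟩
  refine Fermat.Agent.S41.H863.transferAlong_natural (Subgroup.inclusion h)
    (conjK hK g).toMonoidHom (conjK hK' g) (fun _ => rfl) ?_ x k
  rintro k₀ ⟨k₁, hk₁⟩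
  have h1 : ((k₁ : K) : SL(2, ℤ)) = (g : SL(2, ℤ)) * k₀ * (g : SL(2, ℤ))⁻¹ :=
    congrArg (fun z : K' => (z : SL(2, ℤ))) hk₁
  have h2 : (k₀ : SL(2, ℤ)) ∈ K := by
    have h3 := hK.conj_mem g⁻¹ k₁.2
    rw [h1] at h3
    simpa [mul_assoc] using h3
  exact ⟨⟨k₀, h2⟩, rfl⟩

/-- `cor : X_K → X_{K'}` commutes with the diamond operators `⟨u⟩`. -/
theorem coresK_diamondU_comm_h762 (hK : IsMid M K) (hK' : IsMid M K') (h : K ≤ K')
    (u : (ZMod M)ˣ) (x : Additive K →+ A) :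
    coresK h (diamondU hK u x) = diamondU hK' u (coresK h x) :=
  coresK_diamond_h762 hK hK' h _ x

/-- `res : X_{K'} → X_K` commutes with the diamond operators. -/
theorem resK_diamond_h762 (hK : IsMid M K) (hK' : IsMid M K') (h : K ≤ K') (g : Gamma0 M)
    (z : Additive K' →+ A) :
    diamond hK g (resK h z) = resK h (diamond hK' g z) := by
  refine AddMonoidHom.ext fun k' => ?_
  rfl

/-- `res : X_{K'} → X_K` commutes with the diamond operators `⟨u⟩`. -/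
theorem resK_diamondU_h762 (hK : IsMid M K) (hK' : IsMid M K') (h : K ≤ K')
    (u : (ZMod M)ˣ) (z : Additive K' →+ A) :
    diamondU hK u (resK h z) = resK h (diamondU hK' u z) :=
  resK_diamond_h762 hK hK' h _ z

theorem resK_add_h762 (h : K ≤ K') (z z' : Additive K' →+ A) :
    resK h (z + z') = resK h z + resK h z' := rfl

theorem resK_nsmul_h762 (h : K ≤ K') (n : ℕ) (z : Additive K' →+ A) :
    resK h (n • z) = n • resK h z := rfl

/-- `res : X_{K'}(𝒪) → X_K(𝒪)`, `𝒪`-linear. -/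
def resKLin_h762 (h : K ≤ K') (𝒪 : Type*) [CommRing 𝒪] :
    (Additive K' →+ 𝒪) →ₗ[𝒪] (Additive K →+ 𝒪) where
  toFun z := resK h z
  map_add' _ _ := rfl
  map_smul' _ _ := rfl

@[simp] theorem resKLin_h762_apply (h : K ≤ K') (𝒪 : Type*) [CommRing 𝒪]
    (z : Additive K' →+ 𝒪) : resKLin_h762 h 𝒪 z = resK h z := rfl

theorem resK_injective_h762 (h : K ≤ K') [hfi : (K.subgroupOf K').FiniteIndex]
    (hA : ∀ n : ℕ, n ≠ 0 → ∀ a : A, n • a = 0 → a = 0) (z : Additive K' →+ A)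
    (hz : resK h z = 0) : z = 0 := by
  refine AddMonoidHom.ext fun k' => ?_
  obtain ⟨k, rfl⟩ : ∃ k : K', Additive.ofMul k = k' := ⟨Additive.toMul k', rfl⟩
  -- some power of `k` lies in `K`
  obtain ⟨n, hn, -, hk⟩ := Subgroup.exists_pow_mem_of_index_ne_zero hfi.index_ne_zero k
  have hk' : ((k ^ n : K') : SL(2, ℤ)) ∈ K := Subgroup.mem_subgroupOf.mp hk
  have h1 : resK h z (Additive.ofMul (⟨((k ^ n : K') : SL(2, ℤ)), hk'⟩ : K)) = 0 := by
    rw [hz]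
    rfl
  have h2 : z (Additive.ofMul (k ^ n)) = 0 := h1
  have h3 : z (Additive.ofMul (k ^ n)) = n • z (Additive.ofMul k) := by
    rw [ofMul_pow, map_nsmul]
  rw [h3] at h2
  exact hA n (Nat.pos_iff_ne_zero.mp hn) _ h2

end Gen

section DescGen

variable {M : ℕ} [NeZero M] {G : Type} [Group G] [Finite G] (χ : (ZMod M)ˣ →* G)
  (H' : Subgroup (ZMod M)ˣ) (hH' : χ.ker ≤ H') {A : Type} [AddCommGroup A]

include hH' in
/-- `res ∘ cor = |χ(H')|` on the vectors fixed by the `⟨u⟩`, `u ∈ H'`. -/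
theorem resK_coresK_fixed_h762 (y : Additive (GammaH M χ.ker) →+ A)
    (hfix : ∀ u ∈ H', diamondU (isMid_GammaH M χ.ker) u y = y) :
    resK (GammaH_mono hH') (coresK (GammaH_mono hH') y) = Nat.card ↥(H'.map χ) • y := by
  classical
  let _ : Fintype ↥(H'.map χ) := Fintype.ofFinite _
  have hKeq : GammaH M χ.ker = kerSub (kappaSub_h762 χ H') :=
    (kerSub_kappaSub_h762 χ H' hH').symm
  have hex : ∀ d : ↥(H'.map χ), ∃ u, u ∈ H' ∧ χ u = d := by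
    rintro ⟨d, u, hu, rfl⟩
    exact ⟨u, hu, rfl⟩
  choose lift hlift using hex
  rw [resK_coresK_h762 χ H' (GammaH M χ.ker) hKeq (GammaH_mono hH') (isMid_GammaH M χ.ker)
    lift hlift y]
  rw [Finset.sum_congr rfl (fun d _ => hfix (lift d) (hlift d).1), Finset.sum_const,
    Finset.card_univ, Nat.card_eq_fintype_card]

include hH' in
/-- `cor ∘ res = |χ(H')|`. -/
theorem coresK_resK_gen_h762 (z : Additive (GammaH M H') →+ A) :
    coresK (GammaH_mono hH') (resK (GammaH_mono hH') z) = Nat.card ↥(H'.map χ) • z := by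
  classical
  let _ : Fintype ↥(H'.map χ) := Fintype.ofFinite _
  have hKeq : GammaH M χ.ker = kerSub (kappaSub_h762 χ H') :=
    (kerSub_kappaSub_h762 χ H' hH').symm
  have key : ∀ (K : Subgroup SL(2, ℤ)) (_ : K = kerSub (kappaSub_h762 χ H'))
      (hle : K ≤ GammaH M H'),
      coresK hle (resK hle z) = Fintype.card ↥(H'.map χ) • z := by
    intro K hK hle
    subst hK
    exact H57.corRes.{0} (GammaH M H') (↥(H'.map χ)) (kappaSub_h762 χ H')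
      (kappaSub_surjective_h762 χ H') A z
  rw [Nat.card_eq_fintype_card]
  exact key _ hKeq _

omit [Finite G] in
include hH' in
/-- `res z` is fixed by the `⟨u⟩`, `u ∈ H'`. -/
theorem resK_fixed_gen_h762 (z : Additive (GammaH M H') →+ A) (u : (ZMod M)ˣ) (hu : u ∈ H') :
    diamondU (isMid_GammaH M χ.ker) u (resK (GammaH_mono hH') z) =
      resK (GammaH_mono hH') z := by
  rw [resK_diamondU_h762 (isMid_GammaH M χ.ker) (isMid_GammaH M H') (GammaH_mono hH') u z]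
  have h1 : diamondHom (isMid_GammaH M H') A u z = (1 : AddMonoid.End _) z :=
    congrArg (fun f : AddMonoid.End (Additive (GammaH M H') →+ A) => f z)
      (diamondHom_GammaH (A := A) hu)
  exact congrArg (resK (GammaH_mono hH')) h1

omit [NeZero M] in
theorem card_map_ne_zero_h762 : Nat.card ↥(H'.map χ) ≠ 0 := Nat.card_pos.ne'

include hH' in
/-- `cor` commutes with `⟨ℓ⟩^h T_ℓ`, `ℓ ∤ M`. -/
theorem coresK_tOpTw_gen_h762 (𝒪 : Type) [CommRing 𝒪] (h ℓ : ℕ) (hℓ : ℓ.Prime) (hℓM : ¬ ℓ ∣ M)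
    (x : Additive (GammaH M χ.ker) →+ 𝒪) :
    coresK (GammaH_mono hH') (tOpTw (isMid_GammaH M χ.ker) 𝒪 h ℓ hℓ x) =
      tOpTw (isMid_GammaH M H') 𝒪 h ℓ hℓ (coresK (GammaH_mono hH') x) := by
  have : Fact ℓ.Prime := ⟨hℓ⟩
  unfold tOpTw tOp
  rw [coresK_diamondU_comm_h762 (isMid_GammaH M χ.ker) (isMid_GammaH M H') (GammaH_mono hH')]
  exact congrArg (diamondU (isMid_GammaH M H') (uOf M ℓ ^ h))
    (coresK_TK_gen_h762 χ H' hH' hℓM x)

omit [NeZero M] [Finite G] in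
include hH' in
/-- `res` commutes with `⟨ℓ⟩^h T_ℓ`, `ℓ ∤ M`. -/
theorem resK_tOpTw_gen_h762 (𝒪 : Type) [CommRing 𝒪] (h ℓ : ℕ) (hℓ : ℓ.Prime) (hℓM : ¬ ℓ ∣ M)
    (z : Additive (GammaH M H') →+ 𝒪) :
    tOpTw (isMid_GammaH M χ.ker) 𝒪 h ℓ hℓ (resK (GammaH_mono hH') z) =
      resK (GammaH_mono hH') (tOpTw (isMid_GammaH M H') 𝒪 h ℓ hℓ z) := by
  have : Fact ℓ.Prime := ⟨hℓ⟩
  unfold tOpTw tOp
  rw [← resK_diamondU_h762 (isMid_GammaH M χ.ker) (isMid_GammaH M H') (GammaH_mono hH')]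
  exact congrArg (diamondU (isMid_GammaH M χ.ker) (uOf M ℓ ^ h))
    (resK_TK (isMid_GammaH M H') (isMid_GammaH M χ.ker) (GammaH_mono hH') hℓM z)

end DescGen

section DescJ

variable (p : ℕ) (N₀ : ℕ) [hN₀ : NeZero N₀] {r : ℕ} (qv : Fin r → ℕ)
  (hprime : ∀ j, (qv j).Prime) (hinj : Function.Injective qv) {A : Type} [AddCommGroup A]

/-- `n_j = |χ_Q(H_j)|` (the order of the `q_j`-component of `Δ_Q`). -/
noncomputable def nJ (j : Fin r) : ℕ := Nat.card ↥((HJ p N₀ qv j).map (chi p N₀ qv))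

include hprime in
omit hN₀ in
theorem nJ_ne_zero (j : Fin r) : nJ p N₀ qv j ≠ 0 := by
  have hNZ : ∀ j, NeZero (qv j) := fun j => ⟨(hprime j).ne_zero⟩
  have hfin : Finite (Delta p qv) := inferInstance
  exact Nat.card_pos.ne'

include hN₀ hprime hinj in
/-- A vector fixed by `⟨a⟩_j` for ONE primitive root `a` modulo `q_j` is fixed by all `⟨u⟩`,
`u ∈ H_j`. -/
theorem fixed_all_of_primitive_h762 (j : Fin r) (a : (ZMod (qv j))ˣ)
    (ha : orderOf a = qv j - 1) (y : Additive (KQ p N₀ qv) →+ A)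
    (hfix : diamondU (isMid_KQ p N₀ qv) (liftU N₀ qv (Pi.mulSingle j a)) y = y) :
    ∀ u ∈ HJ p N₀ qv j, diamondU (isMid_KQ p N₀ qv) u y = y := by
  have hM : NeZero (bLevel N₀ qv) := neZero_bLevel_h762 N₀ qv hprime
  have hsurj := red_surjective N₀ qv (NeZero.ne N₀) hinj hprime
  intro u hu
  rw [diamondU_eq_mulSingle_h762 p N₀ qv hsurj j hu y]
  obtain ⟨k, hk⟩ := exists_pow_eq_of_orderOf (hprime j) ha (red N₀ qv u j)
  rw [← hk, Pi.mulSingle_pow, dia_pow_h762 p N₀ qv hsurj]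
  exact Function.iterate_fixed hfix k

include hN₀ hprime hinj in
/-- **Descent**: `res (cor_j y) = n_j • y` for `y` fixed by `⟨a⟩_j`, `a` a primitive root. -/
theorem resK_coresK_j_h762 (j : Fin r) (a : (ZMod (qv j))ˣ)
    (ha : orderOf a = qv j - 1) (y : Additive (KQ p N₀ qv) →+ A)
    (hfix : diamondU (isMid_KQ p N₀ qv) (liftU N₀ qv (Pi.mulSingle j a)) y = y) :
    resK (KQ_le_KJ p N₀ qv j) (coresK (KQ_le_KJ p N₀ qv j) y) = nJ p N₀ qv j • y := by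
  have hM : NeZero (bLevel N₀ qv) := neZero_bLevel_h762 N₀ qv hprime
  have hNZ : ∀ j, NeZero (qv j) := fun j => ⟨(hprime j).ne_zero⟩
  have hfin : Finite (Delta p qv) := inferInstance
  exact resK_coresK_fixed_h762 (G := Delta p qv) (chi p N₀ qv) (HJ p N₀ qv j)
    (ker_chi_le_HJ p N₀ qv j) y
    (fixed_all_of_primitive_h762 p N₀ qv hprime hinj j a ha y hfix)

include hN₀ hprime in
/-- `cor_j (res z) = n_j • z`. -/
theorem coresK_resK_j_h762 (j : Fin r) (z : Additive (KJ p N₀ qv j) →+ A) :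
    coresK (KQ_le_KJ p N₀ qv j) (resK (KQ_le_KJ p N₀ qv j) z) = nJ p N₀ qv j • z := by
  have hM : NeZero (bLevel N₀ qv) := neZero_bLevel_h762 N₀ qv hprime
  have hNZ : ∀ j, NeZero (qv j) := fun j => ⟨(hprime j).ne_zero⟩
  have hfin : Finite (Delta p qv) := inferInstance
  exact coresK_resK_gen_h762 (G := Delta p qv) (chi p N₀ qv) (HJ p N₀ qv j)
    (ker_chi_le_HJ p N₀ qv j) z

include hN₀ hprime hinj in
/-- `res z` is fixed by every `⟨a⟩_j`. -/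
theorem resK_j_fixed_h762 (j : Fin r) (z : Additive (KJ p N₀ qv j) →+ A)
    (a : (ZMod (qv j))ˣ) :
    diamondU (isMid_KQ p N₀ qv) (liftU N₀ qv (Pi.mulSingle j a))
      (resK (KQ_le_KJ p N₀ qv j) z) = resK (KQ_le_KJ p N₀ qv j) z := by
  have hM : NeZero (bLevel N₀ qv) := neZero_bLevel_h762 N₀ qv hprime
  have hsurj := red_surjective N₀ qv (NeZero.ne N₀) hinj hprime
  exact resK_fixed_gen_h762 (G := Delta p qv) (chi p N₀ qv) (HJ p N₀ qv j)
    (ker_chi_le_HJ p N₀ qv j) z _ (liftU_mulSingle_mem_HJ p N₀ qv hsurj j a)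

include hN₀ hprime in
/-- `cor_j` commutes with `⟨ℓ⟩^h T_ℓ`, `ℓ ∤ M_Q`. -/
theorem coresK_j_tOpTw_h762 (𝒪 : Type) [CommRing 𝒪] (j : Fin r) (h ℓ : ℕ) (hℓ : ℓ.Prime)
    (hℓM : ¬ ℓ ∣ bLevel N₀ qv) (x : Additive (KQ p N₀ qv) →+ 𝒪) :
    coresK (KQ_le_KJ p N₀ qv j) (tOpTw (isMid_KQ p N₀ qv) 𝒪 h ℓ hℓ x) =
      tOpTw (isMid_KJ p N₀ qv j) 𝒪 h ℓ hℓ (coresK (KQ_le_KJ p N₀ qv j) x) := by
  have hM : NeZero (bLevel N₀ qv) := neZero_bLevel_h762 N₀ qv hprime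
  have hNZ : ∀ j, NeZero (qv j) := fun j => ⟨(hprime j).ne_zero⟩
  have hfin : Finite (Delta p qv) := inferInstance
  exact coresK_tOpTw_gen_h762 (G := Delta p qv) (chi p N₀ qv) (HJ p N₀ qv j)
    (ker_chi_le_HJ p N₀ qv j) 𝒪 h ℓ hℓ hℓM x

omit hN₀ in
/-- `res` commutes with `⟨ℓ⟩^h T_ℓ`, `ℓ ∤ M_Q`. -/
theorem resK_j_tOpTw_h762 (𝒪 : Type) [CommRing 𝒪] (j : Fin r) (h ℓ : ℕ) (hℓ : ℓ.Prime)
    (hℓM : ¬ ℓ ∣ bLevel N₀ qv) (z : Additive (KJ p N₀ qv j) →+ 𝒪) :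
    tOpTw (isMid_KQ p N₀ qv) 𝒪 h ℓ hℓ (resK (KQ_le_KJ p N₀ qv j) z) =
      resK (KQ_le_KJ p N₀ qv j) (tOpTw (isMid_KJ p N₀ qv j) 𝒪 h ℓ hℓ z) :=
  resK_tOpTw_gen_h762 (G := Delta p qv) (chi p N₀ qv) (HJ p N₀ qv j)
    (ker_chi_le_HJ p N₀ qv j) 𝒪 h ℓ hℓ hℓM z

include hN₀ hprime in
/-- `cor_j` maps `⟨ℓ⟩^h T_ℓ`-eigenvectors to eigenvectors (same eigenvalue). -/
theorem coresK_j_eig_tOpTw_h762 (𝒪 : Type) [CommRing 𝒪] (j : Fin r) (h ℓ : ℕ) (hℓ : ℓ.Prime)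
    (hℓM : ¬ ℓ ∣ bLevel N₀ qv) (c : 𝒪) (y : Additive (KQ p N₀ qv) →+ 𝒪)
    (hy : tOpTw (isMid_KQ p N₀ qv) 𝒪 h ℓ hℓ y = c • y) :
    tOpTw (isMid_KJ p N₀ qv j) 𝒪 h ℓ hℓ (coresK (KQ_le_KJ p N₀ qv j) y) =
      c • coresK (KQ_le_KJ p N₀ qv j) y := by
  rw [← coresK_j_tOpTw_h762 p N₀ qv hprime 𝒪 j h ℓ hℓ hℓM y, hy]
  exact map_smul (coresKLin_h762 (KQ_le_KJ p N₀ qv j) 𝒪) c y

include hN₀ hprime in
/-- `cor_j` maps `U_q`-eigenvectors to eigenvectors (same eigenvalue). -/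
theorem coresK_j_eig_UK_h762 (𝒪 : Type) [CommRing 𝒪] (j : Fin r) {q : ℕ} [Fact q.Prime]
    (hq : q ∣ bLevel N₀ qv) (c : 𝒪) (y : Additive (KQ p N₀ qv) →+ 𝒪)
    (hy : UK (KQ p N₀ qv) q y = c • y) :
    UK (KJ p N₀ qv j) q (coresK (KQ_le_KJ p N₀ qv j) y) =
      c • coresK (KQ_le_KJ p N₀ qv j) y := by
  rw [← coresK_j_UK_h762 p N₀ qv hprime j hq y, hy]
  exact map_smul (coresKLin_h762 (KQ_le_KJ p N₀ qv j) 𝒪) c y

include hN₀ hprime hinj in
/-- `cor_j y ≠ 0` for `y ≠ 0` fixed by `⟨a⟩_j` (characteristic `0`). -/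
theorem coresK_j_ne_zero_h762 (𝒪 : Type) [CommRing 𝒪] [IsDomain 𝒪] [CharZero 𝒪] (j : Fin r)
    (a : (ZMod (qv j))ˣ) (ha : orderOf a = qv j - 1) (y : Additive (KQ p N₀ qv) →+ 𝒪)
    (hfix : diamondU (isMid_KQ p N₀ qv) (liftU N₀ qv (Pi.mulSingle j a)) y = y)
    (hy : y ≠ 0) : coresK (KQ_le_KJ p N₀ qv j) y ≠ 0 := by
  intro h0
  have h1 := resK_coresK_j_h762 p N₀ qv hprime hinj j a ha y hfix
  rw [h0] at h1
  have h2 : nJ p N₀ qv j • y = 0 := h1.symm.trans rfl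
  apply hy
  refine AddMonoidHom.ext fun k => ?_
  have h3 : nJ p N₀ qv j • y k = 0 := congrArg (fun f : Additive (KQ p N₀ qv) →+ 𝒪 => f k) h2
  rw [nsmul_eq_mul] at h3
  rcases mul_eq_zero.mp h3 with h4 | h4
  · exact absurd (Nat.cast_eq_zero.mp h4) (nJ_ne_zero p N₀ qv hprime j)
  · exact h4

end DescJ

end Fermat.Agent.S59.TW.Aut.H762
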