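import Fermat.Agent.S59.TW.Aut.H762.PCorGen
import Fermat.Agent.S59.TW.H653.Diamond

/-!
# Partial corestriction, generic form (helper762) — for S59 CMP-(T) and HARD IA-ST / IA-CTRL

`M ≠ 0`, `χ : (ℤ/M)ˣ →* G` (`G` finite abelian), `K = GammaH M χ.ker`, `ker χ ≤ H'`,
`K' = GammaH M H'`.  Let `V ⊆ X_K(𝒪)` be stable under the diamond operators and FREE over `𝒪[G]`:
an `𝒪`-basis of the form `⟨lift g⟩ b_i` (`g ∈ G`, `i ∈ ι'`; `lift` any section of `χ`).  Then for
`y ∈ V`

* `pcor_ker_gen_h762` : `coresK (K ≤ K') y = 0 ↔ y ∈` the additive closure of the `⟨u⟩ y' - y'`,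
  `u ∈ H'`, `y' ∈ V`;
* `pcor_ker_span_h762` : the same with the `𝒪`-span.

Everything is generic in `M`, `G`, `χ`, `H'` (no Taylor–Wiles vocabulary).  The Hecke
equivariance of `coresK` is `coresK_TK_gen_h762`, `coresK_UK_gen_h762` (`PCorGen.lean`) and
`coresK_tOpTw_gen_h762` (`PCorDesc.lean`).
-/

set_option autoImplicit false

namespace Fermat.Agent.S59.TW.Aut.H762

open CongruenceSubgroup
open Fermat.Agent.S59.TW.H653 Fermat.Agent.S59.MFree
open scoped MatrixGroups

section GenKer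

variable {M : ℕ} [NeZero M] {G : Type} [Group G] (χ : (ZMod M)ˣ →* G)

/-- `⟨u⟩ = 1` on `X_K` for `u ∈ ker χ`. -/
theorem diamondU_of_ker_h762 {A : Type} [AddCommGroup A] {u : (ZMod M)ˣ} (hu : χ u = 1)
    (x : Additive (GammaH M χ.ker) →+ A) :
    diamondU (isMid_GammaH M χ.ker) u x = x := by
  have h := diamondHom_GammaH (A := A) (M := M) (H := χ.ker) (u := u) (MonoidHom.mem_ker.mpr hu)
  exact congrArg (fun f : AddMonoid.End (Additive (GammaH M χ.ker) →+ A) => f x) h

/-- The diamond operator of `K` depends only on `χ u`. -/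
theorem diamondU_eq_of_chi_gen_h762 {A : Type} [AddCommGroup A] {u u' : (ZMod M)ˣ}
    (hu : χ u = χ u') (x : Additive (GammaH M χ.ker) →+ A) :
    diamondU (isMid_GammaH M χ.ker) u x = diamondU (isMid_GammaH M χ.ker) u' x := by
  have h1 : u = u' * (u'⁻¹ * u) := by group
  have h2 : χ (u'⁻¹ * u) = 1 := by
    rw [map_mul, map_inv, hu, inv_mul_cancel]
  rw [h1, diamondU_mul, diamondU_of_ker_h762 χ h2]

variable [Fintype G] (hcomm : ∀ a b : G, a * b = b * a)
  (H' : Subgroup (ZMod M)ˣ) (hH' : χ.ker ≤ H') (𝒪 : Type) [CommRing 𝒪]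

include hcomm hH' in
/-- **PCOR, generic form**: the kernel of `cor : V → X_{K'}` is the augmentation submodule of
`H'`, for `V` free over `𝒪[G]`. -/
theorem pcor_ker_gen_h762
    (V : Submodule 𝒪 (Additive (GammaH M χ.ker) →+ 𝒪))
    (hVdia : ∀ (u : (ZMod M)ˣ), ∀ x ∈ V, diamondU (isMid_GammaH M χ.ker) u x ∈ V)
    (lift : G → (ZMod M)ˣ) (hlift : ∀ g, χ (lift g) = g)
    {ι' : Type} [Fintype ι'] (b : ι' → Additive (GammaH M χ.ker) →+ 𝒪) (hbV : ∀ i, b i ∈ V)
    (hb : ∀ y ∈ V, ∃! c : ι' → G → 𝒪,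
      y = ∑ i, ∑ g, c i g • diamondU (isMid_GammaH M χ.ker) (lift g) (b i))
    {y : Additive (GammaH M χ.ker) →+ 𝒪} (hy : y ∈ V) :
    coresK (GammaH_mono hH' : GammaH M χ.ker ≤ GammaH M H') y = 0 ↔
      y ∈ AddSubgroup.closure {z : Additive (GammaH M χ.ker) →+ 𝒪 |
        ∃ u ∈ H', ∃ y' ∈ V, z = diamondU (isMid_GammaH M χ.ker) u y' - y'} := by
  classical
  have hfin : Finite G := Finite.of_fintype G
  let _ : Fintype ↥(H'.map χ) := Fintype.ofFinite _
  have hKeq : GammaH M χ.ker = kerSub (kappaSub_h762 χ H') :=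
    (kerSub_kappaSub_h762 χ H' hH').symm
  have hliftH : ∀ d : ↥(H'.map χ), lift (d : G) ∈ H' := by
    rintro ⟨d, u, hu, rfl⟩
    have h1 : (lift (χ u)) * u⁻¹ ∈ χ.ker := by
      rw [MonoidHom.mem_ker, map_mul, hlift, map_inv, mul_inv_cancel]
    have h2 := H'.mul_mem (hH' h1) hu
    rwa [inv_mul_cancel_right] at h2
  constructor
  · intro h
    let δ : G → (Additive (GammaH M χ.ker) →+ 𝒪) →ₗ[𝒪] (Additive (GammaH M χ.ker) →+ 𝒪) :=
      fun d =>
        { toFun := fun x => diamondU (isMid_GammaH M χ.ker) (lift d) x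
          map_add' := fun _ _ => rfl
          map_smul' := fun _ _ => rfl }
    have hδapp : ∀ d x, δ d x = diamondU (isMid_GammaH M χ.ker) (lift d) x := fun _ _ => rfl
    have hδ : ∀ g h x, δ g (δ h x) = δ (g * h) x := by
      intro g h x
      rw [hδapp, hδapp, hδapp, ← diamondU_mul]
      apply diamondU_eq_of_chi_gen_h762
      rw [map_mul, hlift, hlift, hlift]
    have hN : ∑ d' : ↥(H'.map χ), δ (d' : G) y = 0 := by
      have h3 := resK_coresK_h762 χ H' (GammaH M χ.ker) hKeq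
        (GammaH_mono hH') (isMid_GammaH M χ.ker) (fun d' => lift (d' : G))
        (fun d' => ⟨hliftH d', hlift _⟩) y
      have e0 : resK (GammaH_mono hH' : GammaH M χ.ker ≤ GammaH M H')
          (coresK (GammaH_mono hH' : GammaH M χ.ker ≤ GammaH M H') y) = 0 :=
        (congrArg (resK (GammaH_mono hH' : GammaH M χ.ker ≤ GammaH M H')) h).trans rfl
      exact h3.symm.trans e0
    have h4 := ker_norm_sub_h762 hcomm δ hδ V (fun g x hx => hVdia _ x hx) b hbV hb
      (H'.map χ) hy hN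
    refine AddSubgroup.closure_mono ?_ h4
    rintro z ⟨d', y', hy', rfl⟩
    exact ⟨lift (d' : G), hliftH d', y', hy', rfl⟩
  · intro h
    clear hy
    induction h using AddSubgroup.closure_induction with
    | mem z hz =>
      obtain ⟨u, hu, y', -, rfl⟩ := hz
      have h5 := coresK_diamondU_h762 χ H' (GammaH M χ.ker) hKeq (GammaH_mono hH')
        (isMid_GammaH M χ.ker) u hu y'
      have h6 : coresK (GammaH_mono hH' : GammaH M χ.ker ≤ GammaH M H')
          (diamondU (isMid_GammaH M χ.ker) u y' - y') =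
          coresK (GammaH_mono hH') (diamondU (isMid_GammaH M χ.ker) u y') -
            coresK (GammaH_mono hH') y' :=
        map_sub (coresKLin_h762 (GammaH_mono hH' : GammaH M χ.ker ≤ GammaH M H') 𝒪) _ _
      exact h6.trans (sub_eq_zero.mpr h5)
    | zero => exact map_zero (coresKLin_h762 (GammaH_mono hH') 𝒪)
    | add a b _ _ ha hb =>
      have h7 : coresK (GammaH_mono hH' : GammaH M χ.ker ≤ GammaH M H') (a + b) =
          coresK (GammaH_mono hH') a + coresK (GammaH_mono hH') b :=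
        map_add (coresKLin_h762 (GammaH_mono hH' : GammaH M χ.ker ≤ GammaH M H') 𝒪) a b
      exact h7.trans ((congrArg₂ (· + ·) ha hb).trans (add_zero 0))
    | neg a _ ha =>
      have h8 : coresK (GammaH_mono hH' : GammaH M χ.ker ≤ GammaH M H') (-a) =
          -coresK (GammaH_mono hH') a :=
        map_neg (coresKLin_h762 (GammaH_mono hH' : GammaH M χ.ker ≤ GammaH M H') 𝒪) a
      exact h8.trans ((congrArg Neg.neg ha).trans neg_zero)

include hcomm hH' in
/-- **PCOR, generic form, with the `𝒪`-span.** -/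
theorem pcor_ker_span_h762
    (V : Submodule 𝒪 (Additive (GammaH M χ.ker) →+ 𝒪))
    (hVdia : ∀ (u : (ZMod M)ˣ), ∀ x ∈ V, diamondU (isMid_GammaH M χ.ker) u x ∈ V)
    (lift : G → (ZMod M)ˣ) (hlift : ∀ g, χ (lift g) = g)
    {ι' : Type} [Fintype ι'] (b : ι' → Additive (GammaH M χ.ker) →+ 𝒪) (hbV : ∀ i, b i ∈ V)
    (hb : ∀ y ∈ V, ∃! c : ι' → G → 𝒪,
      y = ∑ i, ∑ g, c i g • diamondU (isMid_GammaH M χ.ker) (lift g) (b i))
    {y : Additive (GammaH M χ.ker) →+ 𝒪} (hy : y ∈ V) :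
    coresK (GammaH_mono hH' : GammaH M χ.ker ≤ GammaH M H') y = 0 ↔
      y ∈ Submodule.span 𝒪 {z : Additive (GammaH M χ.ker) →+ 𝒪 |
        ∃ u ∈ H', ∃ y' ∈ V, z = diamondU (isMid_GammaH M χ.ker) u y' - y'} := by
  classical
  have hfin : Finite G := Finite.of_fintype G
  have hKeq : GammaH M χ.ker = kerSub (kappaSub_h762 χ H') :=
    (kerSub_kappaSub_h762 χ H' hH').symm
  constructor
  · intro h
    have h1 := (pcor_ker_gen_h762 χ hcomm H' hH' 𝒪 V hVdia lift hlift b hbV hb hy).mp h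
    have h2 : AddSubgroup.closure {z : Additive (GammaH M χ.ker) →+ 𝒪 |
        ∃ u ∈ H', ∃ y' ∈ V, z = diamondU (isMid_GammaH M χ.ker) u y' - y'} ≤
        (Submodule.span 𝒪 {z : Additive (GammaH M χ.ker) →+ 𝒪 |
        ∃ u ∈ H', ∃ y' ∈ V, z = diamondU (isMid_GammaH M χ.ker) u y' - y'}).toAddSubgroup :=
      (AddSubgroup.closure_le _).mpr Submodule.subset_span
    exact h2 h1
  · intro h
    have h3 : Submodule.span 𝒪 {z : Additive (GammaH M χ.ker) →+ 𝒪 |
        ∃ u ∈ H', ∃ y' ∈ V, z = diamondU (isMid_GammaH M χ.ker) u y' - y'} ≤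
        LinearMap.ker (coresKLin_h762 (GammaH_mono hH' : GammaH M χ.ker ≤ GammaH M H') 𝒪) := by
      rw [Submodule.span_le]
      rintro z ⟨u, hu, y', -, rfl⟩
      rw [SetLike.mem_coe, LinearMap.mem_ker, map_sub, sub_eq_zero]
      exact coresK_diamondU_h762 χ H' (GammaH M χ.ker) hKeq (GammaH_mono hH')
        (isMid_GammaH M χ.ker) u hu y'
    exact LinearMap.mem_ker.mp (h3 h)

end GenKer

end Fermat.Agent.S59.TW.Aut.H762
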