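import Fermat.Agent.S59.TW.Aut.H762.PCorDesc

/-!
# S59 / cell TW, layer 3 (AUT), leaf CMP, DICT-T: transfer of annihilators along `cor_j` (helper762)

* `intertwine_free_h762` (Mathlib-only): a linear map intertwining two families of operators
  intertwines all the words in them (`FreeAlgebra.lift`);
* `ann_transfer_h762` (Mathlib-only): if moreover `r ∘ c = n` on `y` (`n`-torsion-free), a word
  kills `y` iff it kills `c y`;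
* `GoodL M`, `tOpTwLin_h762 hK 𝒪 h : GoodL M → End_𝒪 X_K(𝒪)` : the operators `⟨ℓ⟩^h T_ℓ`, `ℓ ∤ M`;
* `coresK_j_word_h762`, `resK_j_word_h762` : `cor_j`, `res` intertwine the words in the
  `⟨ℓ⟩^h T_ℓ` at the levels `K_Q` and `K_j`;
* `ann_coresK_j_h762` : for `y ∈ X_{K_Q}(𝒪)` fixed by `⟨a⟩_j` (`a` a primitive root), a word in the
  `⟨ℓ⟩^h T_ℓ` kills `y` iff it kills `cor_j y` (characteristic `0`).
-/

set_option autoImplicit false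

namespace Fermat.Agent.S59.TW.Aut.H762

open CongruenceSubgroup
open Fermat.Agent.S59.Arch Fermat.Agent.S59.TW.H653 Fermat.Agent.S59.MFree
open Fermat.Agent.S59.TW.Aut
open scoped MatrixGroups

section Abs

variable {𝒪 : Type*} [CommRing 𝒪] {X Z : Type*} [AddCommGroup X] [Module 𝒪 X]
  [AddCommGroup Z] [Module 𝒪 Z] {ι : Type*}

/-- A linear map intertwining two families of operators intertwines all the words in them. -/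
theorem intertwine_free_h762 (τ : ι → Module.End 𝒪 X) (τ' : ι → Module.End 𝒪 Z)
    (c : X →ₗ[𝒪] Z) (hc : ∀ i x, c (τ i x) = τ' i (c x)) (w : FreeAlgebra 𝒪 ι) :
    ∀ x : X, c (FreeAlgebra.lift 𝒪 τ w x) = FreeAlgebra.lift 𝒪 τ' w (c x) := by
  induction w using FreeAlgebra.induction with
  | grade0 r =>
    intro x
    rw [AlgHom.commutes, AlgHom.commutes, Module.algebraMap_end_apply,
      Module.algebraMap_end_apply, map_smul]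
  | grade1 i =>
    intro x
    rw [FreeAlgebra.lift_ι_apply, FreeAlgebra.lift_ι_apply]
    exact hc i x
  | mul a b ha hb =>
    intro x
    rw [map_mul, map_mul, Module.End.mul_apply, Module.End.mul_apply, ha, hb]
  | add a b ha hb =>
    intro x
    rw [map_add, map_add, LinearMap.add_apply, LinearMap.add_apply, map_add, ha, hb]

/-- If `c`, `r` intertwine the two families and `r (c y) = n • y` with `X` `n`-torsion-free, then a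
word kills `y` iff it kills `c y`. -/
theorem ann_transfer_h762 (τ : ι → Module.End 𝒪 X) (τ' : ι → Module.End 𝒪 Z)
    (c : X →ₗ[𝒪] Z) (r : Z →ₗ[𝒪] X) (hc : ∀ i x, c (τ i x) = τ' i (c x))
    (hr : ∀ i z, r (τ' i z) = τ i (r z)) (n : ℕ) (y : X) (hrc : r (c y) = n • y)
    (htf : ∀ x : X, n • x = 0 → x = 0) (w : FreeAlgebra 𝒪 ι) :
    FreeAlgebra.lift 𝒪 τ w y = 0 ↔ FreeAlgebra.lift 𝒪 τ' w (c y) = 0 := by
  constructor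
  · intro h
    rw [← intertwine_free_h762 τ τ' c hc w y, h, map_zero]
  · intro h
    have h1 := intertwine_free_h762 τ' τ r hr w (c y)
    rw [h, map_zero, hrc, map_nsmul] at h1
    exact htf _ h1.symm

end Abs

section Ops

variable {M : ℕ} {K : Subgroup SL(2, ℤ)}

/-- The primes `ℓ ∤ M`. -/
def GoodL (M : ℕ) : Type := {ℓ : ℕ // ℓ.Prime ∧ ¬ ℓ ∣ M}

theorem tOpTw_add_h762 (hK : IsMid M K) (𝒪 : Type) [CommRing 𝒪] (h : ℕ) (ℓ : GoodL M)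
    (x y : Additive K →+ 𝒪) :
    tOpTw hK 𝒪 h ℓ.1 ℓ.2.1 (x + y) = tOpTw hK 𝒪 h ℓ.1 ℓ.2.1 x + tOpTw hK 𝒪 h ℓ.1 ℓ.2.1 y := by
  have : Fact ℓ.1.Prime := ⟨ℓ.2.1⟩
  unfold tOpTw tOp
  have h1 : TK M K ℓ.1 (x + y) = TK M K ℓ.1 x + TK M K ℓ.1 y := TK_add hK ℓ.2.2 x y
  exact (congrArg (diamondU hK (uOf M ℓ.1 ^ h)) h1).trans (diamondU_add hK _ _ _)

theorem tOpTw_smul_h762 (hK : IsMid M K) (𝒪 : Type) [CommRing 𝒪] (h : ℕ) (ℓ : GoodL M)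
    (c : 𝒪) (x : Additive K →+ 𝒪) :
    tOpTw hK 𝒪 h ℓ.1 ℓ.2.1 (c • x) = c • tOpTw hK 𝒪 h ℓ.1 ℓ.2.1 x := by
  have : Fact ℓ.1.Prime := ⟨ℓ.2.1⟩
  unfold tOpTw tOp
  have e : ∀ ψ : Additive K →+ 𝒪, c • ψ = (AddMonoidHom.mulLeft c).comp ψ := fun ψ => rfl
  have h1 : TK M K ℓ.1 (c • x) = c • TK M K ℓ.1 x := by
    rw [e, e]
    exact TK_comp hK ℓ.2.2 _ x
  exact (congrArg (diamondU hK (uOf M ℓ.1 ^ h)) h1).trans rfl

/-- `⟨ℓ⟩^h T_ℓ` (`ℓ ∤ M`) as an `𝒪`-linear endomorphism of `X_K(𝒪)`. -/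
noncomputable def tOpTwLin_h762 (hK : IsMid M K) (𝒪 : Type) [CommRing 𝒪] (h : ℕ) (ℓ : GoodL M) :
    Module.End 𝒪 (Additive K →+ 𝒪) where
  toFun := tOpTw hK 𝒪 h ℓ.1 ℓ.2.1
  map_add' := tOpTw_add_h762 hK 𝒪 h ℓ
  map_smul' := tOpTw_smul_h762 hK 𝒪 h ℓ

@[simp] theorem tOpTwLin_h762_apply (hK : IsMid M K) (𝒪 : Type) [CommRing 𝒪] (h : ℕ)
    (ℓ : GoodL M) (x : Additive K →+ 𝒪) :
    tOpTwLin_h762 hK 𝒪 h ℓ x = tOpTw hK 𝒪 h ℓ.1 ℓ.2.1 x := rfl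

end Ops

section WordJ

variable (p : ℕ) (N₀ : ℕ) [hN₀ : NeZero N₀] {r : ℕ} (qv : Fin r → ℕ)
  (hprime : ∀ j, (qv j).Prime) (hinj : Function.Injective qv) (𝒪 : Type) [CommRing 𝒪]

include hN₀ hprime in
/-- `cor_j` intertwines the words in the `⟨ℓ⟩^h T_ℓ`. -/
theorem coresK_j_word_h762 (j : Fin r) (h : ℕ) (w : FreeAlgebra 𝒪 (GoodL (bLevel N₀ qv)))
    (x : Additive (KQ p N₀ qv) →+ 𝒪) :
    coresK (KQ_le_KJ p N₀ qv j)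
        (FreeAlgebra.lift 𝒪 (tOpTwLin_h762 (isMid_KQ p N₀ qv) 𝒪 h) w x) =
      FreeAlgebra.lift 𝒪 (tOpTwLin_h762 (isMid_KJ p N₀ qv j) 𝒪 h) w
        (coresK (KQ_le_KJ p N₀ qv j) x) :=
  intertwine_free_h762 (tOpTwLin_h762 (isMid_KQ p N₀ qv) 𝒪 h)
    (tOpTwLin_h762 (isMid_KJ p N₀ qv j) 𝒪 h) (coresKLin_h762 (KQ_le_KJ p N₀ qv j) 𝒪)
    (fun ℓ x => coresK_j_tOpTw_h762 p N₀ qv hprime 𝒪 j h ℓ.1 ℓ.2.1 ℓ.2.2 x) w x

omit hN₀ in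
/-- `res` intertwines the words in the `⟨ℓ⟩^h T_ℓ`. -/
theorem resK_j_word_h762 (j : Fin r) (h : ℕ) (w : FreeAlgebra 𝒪 (GoodL (bLevel N₀ qv)))
    (z : Additive (KJ p N₀ qv j) →+ 𝒪) :
    resK (KQ_le_KJ p N₀ qv j)
        (FreeAlgebra.lift 𝒪 (tOpTwLin_h762 (isMid_KJ p N₀ qv j) 𝒪 h) w z) =
      FreeAlgebra.lift 𝒪 (tOpTwLin_h762 (isMid_KQ p N₀ qv) 𝒪 h) w
        (resK (KQ_le_KJ p N₀ qv j) z) :=
  intertwine_free_h762 (tOpTwLin_h762 (isMid_KJ p N₀ qv j) 𝒪 h)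
    (tOpTwLin_h762 (isMid_KQ p N₀ qv) 𝒪 h) (resKLin_h762 (KQ_le_KJ p N₀ qv j) 𝒪)
    (fun ℓ z => (resK_j_tOpTw_h762 p N₀ qv 𝒪 j h ℓ.1 ℓ.2.1 ℓ.2.2 z).symm) w z

include hN₀ hprime hinj in
/-- **Transfer of annihilators**: for `y` fixed by `⟨a⟩_j` (`a` a primitive root modulo `q_j`),
a word in the `⟨ℓ⟩^h T_ℓ` kills `y` iff it kills `cor_j y`. -/
theorem ann_coresK_j_h762 [IsDomain 𝒪] [CharZero 𝒪] (j : Fin r) (h : ℕ)
    (a : (ZMod (qv j))ˣ) (ha : orderOf a = qv j - 1) (y : Additive (KQ p N₀ qv) →+ 𝒪)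
    (hfix : diamondU (isMid_KQ p N₀ qv) (liftU N₀ qv (Pi.mulSingle j a)) y = y)
    (w : FreeAlgebra 𝒪 (GoodL (bLevel N₀ qv))) :
    FreeAlgebra.lift 𝒪 (tOpTwLin_h762 (isMid_KQ p N₀ qv) 𝒪 h) w y = 0 ↔
      FreeAlgebra.lift 𝒪 (tOpTwLin_h762 (isMid_KJ p N₀ qv j) 𝒪 h) w
        (coresK (KQ_le_KJ p N₀ qv j) y) = 0 := by
  refine ann_transfer_h762 (tOpTwLin_h762 (isMid_KQ p N₀ qv) 𝒪 h)
    (tOpTwLin_h762 (isMid_KJ p N₀ qv j) 𝒪 h) (coresKLin_h762 (KQ_le_KJ p N₀ qv j) 𝒪)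
    (resKLin_h762 (KQ_le_KJ p N₀ qv j) 𝒪)
    (fun ℓ x => coresK_j_tOpTw_h762 p N₀ qv hprime 𝒪 j h ℓ.1 ℓ.2.1 ℓ.2.2 x)
    (fun ℓ z => (resK_j_tOpTw_h762 p N₀ qv 𝒪 j h ℓ.1 ℓ.2.1 ℓ.2.2 z).symm)
    (nJ p N₀ qv j) y (resK_coresK_j_h762 p N₀ qv hprime hinj j a ha y hfix) ?_ w
  intro x hx
  refine AddMonoidHom.ext fun k => ?_
  have h3 : nJ p N₀ qv j • x k = 0 :=
    congrArg (fun f : Additive (KQ p N₀ qv) →+ 𝒪 => f k) hx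
  rw [nsmul_eq_mul] at h3
  rcases mul_eq_zero.mp h3 with h4 | h4
  · exact absurd (Nat.cast_eq_zero.mp h4) (nJ_ne_zero p N₀ qv hprime j)
  · exact h4

end WordJ

end Fermat.Agent.S59.TW.Aut.H762
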