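import Fermat.Agent.S59.TW.Aut.H762.PCorInt
import Fermat.Agent.S59.TW.Aut.H762.PCorGen2

/-!
# Partial corestriction: the norm trick (helper762) — for HARD IA-ST step (d), S59 CMP-(T)

`χ : (ℤ/M)ˣ →* G` (`G` finite), `ker χ ≤ H'`, `K = GammaH M χ.ker ≤ K' = GammaH M H'`,
`n = |χ(H')|`, `Aug_{H'}(V) = span_𝒪 {⟨u⟩ y - y | u ∈ H', y ∈ V}`.  NO freeness is needed.

* `nsmul_sub_norm_mem_aug_h762` : `n • v - res (cor v) ∈ Aug_{H'}(V)` for `v ∈ V`;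
* `nsmul_mem_aug_of_coresK_eq_zero_h762` : `cor v = 0 → n • v ∈ Aug_{H'}(V)`;
* `coresK_tOpTw_word_gen_h762`, `resK_tOpTw_word_gen_h762` : `cor`, `res` intertwine the words in
  the `⟨ℓ⟩^h T_ℓ`, `ℓ ∤ M` (`FreeAlgebra 𝒪 (GoodL M)`), levels `K` and `K'`;
* `nsmul_word_mem_aug_h762` : if a word `w` kills `cor v` at the level `K'`, then
  `n • (w v) ∈ Aug_{H'}(V)` (for `v`, `w v ∈ V`).
-/

set_option autoImplicit false

namespace Fermat.Agent.S59.TW.Aut.H762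

open CongruenceSubgroup
open Fermat.Agent.S59.TW.H653 Fermat.Agent.S59.MFree
open Fermat.Agent.S59.TW.Aut
open scoped MatrixGroups

section Norm

variable {M : ℕ} [NeZero M] {G : Type} [Group G] [Finite G] (χ : (ZMod M)ˣ →* G)
  (H' : Subgroup (ZMod M)ˣ) (hH' : χ.ker ≤ H') (𝒪 : Type) [CommRing 𝒪]

/-- The augmentation submodule of `H'` in `V`. -/
def augSub_h762 (V : Submodule 𝒪 (Additive (GammaH M χ.ker) →+ 𝒪)) :
    Submodule 𝒪 (Additive (GammaH M χ.ker) →+ 𝒪) :=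
  Submodule.span 𝒪 {z : Additive (GammaH M χ.ker) →+ 𝒪 |
    ∃ u ∈ H', ∃ y' ∈ V, z = diamondU (isMid_GammaH M χ.ker) u y' - y'}

include hH' in
/-- `n • v - res (cor v) ∈ Aug_{H'}(V)`. -/
theorem nsmul_sub_norm_mem_aug_h762 (V : Submodule 𝒪 (Additive (GammaH M χ.ker) →+ 𝒪))
    {v : Additive (GammaH M χ.ker) →+ 𝒪} (hv : v ∈ V) :
    Nat.card ↥(H'.map χ) • v -
      resK (GammaH_mono hH' : GammaH M χ.ker ≤ GammaH M H')
        (coresK (GammaH_mono hH' : GammaH M χ.ker ≤ GammaH M H') v) ∈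
      augSub_h762 χ H' 𝒪 V := by
  classical
  let _ : Fintype ↥(H'.map χ) := Fintype.ofFinite _
  have hKeq : GammaH M χ.ker = kerSub (kappaSub_h762 χ H') :=
    (kerSub_kappaSub_h762 χ H' hH').symm
  have hex : ∀ d : ↥(H'.map χ), ∃ u, u ∈ H' ∧ χ u = d := by
    rintro ⟨d, u, hu, rfl⟩
    exact ⟨u, hu, rfl⟩
  choose lift hlift using hex
  rw [resK_coresK_h762 χ H' (GammaH M χ.ker) hKeq (GammaH_mono hH') (isMid_GammaH M χ.ker)
    lift hlift v]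
  have h1 : Nat.card ↥(H'.map χ) • v = ∑ _d : ↥(H'.map χ), v := by
    rw [Finset.sum_const, Finset.card_univ, Nat.card_eq_fintype_card]
  rw [h1, ← Finset.sum_sub_distrib]
  refine Submodule.sum_mem _ fun d _ => ?_
  have h2 : v - diamondU (isMid_GammaH M χ.ker) (lift d) v =
      -(diamondU (isMid_GammaH M χ.ker) (lift d) v - v) := by abel
  rw [h2]
  exact Submodule.neg_mem _ (Submodule.subset_span ⟨lift d, (hlift d).1, v, hv, rfl⟩)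

include hH' in
/-- **Norm trick**: `cor v = 0 → n • v ∈ Aug_{H'}(V)`. -/
theorem nsmul_mem_aug_of_coresK_eq_zero_h762
    (V : Submodule 𝒪 (Additive (GammaH M χ.ker) →+ 𝒪))
    {v : Additive (GammaH M χ.ker) →+ 𝒪} (hv : v ∈ V)
    (h0 : coresK (GammaH_mono hH' : GammaH M χ.ker ≤ GammaH M H') v = 0) :
    Nat.card ↥(H'.map χ) • v ∈ augSub_h762 χ H' 𝒪 V := by
  have h1 := nsmul_sub_norm_mem_aug_h762 χ H' hH' 𝒪 V hv
  rw [h0] at h1
  have h2 : resK (GammaH_mono hH' : GammaH M χ.ker ≤ GammaH M H')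
      (0 : Additive (GammaH M H') →+ 𝒪) = 0 := rfl
  rwa [h2, sub_zero] at h1

include hH' in
/-- `cor` kills `Aug_{H'}(V)`. -/
theorem coresK_eq_zero_of_mem_aug_h762 (V : Submodule 𝒪 (Additive (GammaH M χ.ker) →+ 𝒪))
    {v : Additive (GammaH M χ.ker) →+ 𝒪} (hv : v ∈ augSub_h762 χ H' 𝒪 V) :
    coresK (GammaH_mono hH' : GammaH M χ.ker ≤ GammaH M H') v = 0 := by
  have hKeq : GammaH M χ.ker = kerSub (kappaSub_h762 χ H') :=
    (kerSub_kappaSub_h762 χ H' hH').symm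
  have h3 : augSub_h762 χ H' 𝒪 V ≤
      LinearMap.ker (coresKLin_h762 (GammaH_mono hH' : GammaH M χ.ker ≤ GammaH M H') 𝒪) := by
    unfold augSub_h762
    rw [Submodule.span_le]
    rintro z ⟨u, hu, y', -, rfl⟩
    rw [SetLike.mem_coe, LinearMap.mem_ker, map_sub, sub_eq_zero]
    exact coresK_diamondU_h762 χ H' (GammaH M χ.ker) hKeq (GammaH_mono hH')
      (isMid_GammaH M χ.ker) u hu y'
  exact LinearMap.mem_ker.mp (h3 hv)

include hH' in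
/-- `cor` intertwines the words in the `⟨ℓ⟩^h T_ℓ`, `ℓ ∤ M`. -/
theorem coresK_tOpTw_word_gen_h762 (h : ℕ) (w : FreeAlgebra 𝒪 (GoodL M))
    (x : Additive (GammaH M χ.ker) →+ 𝒪) :
    coresK (GammaH_mono hH' : GammaH M χ.ker ≤ GammaH M H')
        (FreeAlgebra.lift 𝒪 (tOpTwLin_h762 (isMid_GammaH M χ.ker) 𝒪 h) w x) =
      FreeAlgebra.lift 𝒪 (tOpTwLin_h762 (isMid_GammaH M H') 𝒪 h) w
        (coresK (GammaH_mono hH' : GammaH M χ.ker ≤ GammaH M H') x) :=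
  intertwine_free_h762 (tOpTwLin_h762 (isMid_GammaH M χ.ker) 𝒪 h)
    (tOpTwLin_h762 (isMid_GammaH M H') 𝒪 h)
    (coresKLin_h762 (GammaH_mono hH' : GammaH M χ.ker ≤ GammaH M H') 𝒪)
    (fun ℓ x => coresK_tOpTw_gen_h762 χ H' hH' 𝒪 h ℓ.1 ℓ.2.1 ℓ.2.2 x) w x

omit [NeZero M] [Finite G] in
include hH' in
/-- `res` intertwines the words in the `⟨ℓ⟩^h T_ℓ`, `ℓ ∤ M`. -/
theorem resK_tOpTw_word_gen_h762 (h : ℕ) (w : FreeAlgebra 𝒪 (GoodL M))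
    (z : Additive (GammaH M H') →+ 𝒪) :
    resK (GammaH_mono hH' : GammaH M χ.ker ≤ GammaH M H')
        (FreeAlgebra.lift 𝒪 (tOpTwLin_h762 (isMid_GammaH M H') 𝒪 h) w z) =
      FreeAlgebra.lift 𝒪 (tOpTwLin_h762 (isMid_GammaH M χ.ker) 𝒪 h) w
        (resK (GammaH_mono hH' : GammaH M χ.ker ≤ GammaH M H') z) :=
  intertwine_free_h762 (tOpTwLin_h762 (isMid_GammaH M H') 𝒪 h)
    (tOpTwLin_h762 (isMid_GammaH M χ.ker) 𝒪 h)
    (resKLin_h762 (GammaH_mono hH' : GammaH M χ.ker ≤ GammaH M H') 𝒪)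
    (fun ℓ z => (resK_tOpTw_gen_h762 χ H' hH' 𝒪 h ℓ.1 ℓ.2.1 ℓ.2.2 z).symm) w z

include hH' in
/-- **hocc-transfer**: if the word `w` kills `cor v` at the level `K'`, then
`n • (w v) ∈ Aug_{H'}(V)`. -/
theorem nsmul_word_mem_aug_h762 (V : Submodule 𝒪 (Additive (GammaH M χ.ker) →+ 𝒪)) (h : ℕ)
    (w : FreeAlgebra 𝒪 (GoodL M)) {v : Additive (GammaH M χ.ker) →+ 𝒪}
    (hwv : FreeAlgebra.lift 𝒪 (tOpTwLin_h762 (isMid_GammaH M χ.ker) 𝒪 h) w v ∈ V)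
    (h0 : FreeAlgebra.lift 𝒪 (tOpTwLin_h762 (isMid_GammaH M H') 𝒪 h) w
      (coresK (GammaH_mono hH' : GammaH M χ.ker ≤ GammaH M H') v) = 0) :
    Nat.card ↥(H'.map χ) •
      FreeAlgebra.lift 𝒪 (tOpTwLin_h762 (isMid_GammaH M χ.ker) 𝒪 h) w v ∈
      augSub_h762 χ H' 𝒪 V := by
  refine nsmul_mem_aug_of_coresK_eq_zero_h762 χ H' hH' 𝒪 V hwv ?_
  rw [coresK_tOpTw_word_gen_h762 χ H' hH' 𝒪 h w v]
  exact h0

end Norm

end Fermat.Agent.S59.TW.Aut.H762
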