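import Fermat.Agent.S59.TW.Aut.H762.PCorInt
import Fermat.Agent.S59.TW.H653.Cusp

/-!
# S59 / cell TW, layer 3 (AUT), leaf CMP, DICT-T: the `K_j`-descent of an eigenvector (helper762)

Context of `H314.DictTStatement`: `V ⊆ X_{K_Q}(𝒪)`, `a : T_Q → End V` with `IsQAction PQ V h a`.

* `exists_word_h762` : every `s ∈ T_Q` acts on `V` as a word `w` in the `⟨ℓ⟩^h T_ℓ`, `ℓ ∤ M_Q`;
* `desc_dictT_h762` : for `y ∈ V` fixed by `⟨u⟩_j` (`u` a primitive root modulo `q_j`),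
  `z := cor_j y ∈ X_{K_j}(𝒪)` satisfies `res z = n_j • y` (`n_j ≠ 0`), `z ≠ 0` if `y ≠ 0`,
  `z` is cuspidal if `y` is, and for every `s ∈ T_Q` there is a word `w` acting as `s` on `V` with
  `a s y = 0 ↔ w z = 0`: the annihilator of `y` in `T_Q` is the annihilator of a nonzero class of
  level `K_j = Γ₀(M_Q) ∩ Γ_H(Q ∖ q_j)` (no nebentypus at `q_j`).
-/

set_option autoImplicit false

open IsLocalRing

namespace Fermat.Agent.S59.TW.Aut.H762

open CongruenceSubgroup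
open Fermat.Agent.S59.Arch Fermat.Agent.S59.TW.H653 Fermat.Agent.S59.MFree
open Fermat.Agent.S59.TW.Aut Fermat.Agent.S59.TW.H959
open scoped MatrixGroups

section Word

variable {p : ℕ} [hpF : Fact p.Prime]
  {𝒪 : Type} [CommRing 𝒪] [IsDomain 𝒪] [IsDiscreteValuationRing 𝒪]
  [IsAdicComplete (maximalIdeal 𝒪) 𝒪]
  {ρbar : ResidualGaloisRep (ResidueField 𝒪)} {t : PType} {Smin : Finset ℕ}
  [NeZero (wilesLevel p t Smin Smin)]
  {r : ℕ} {qv : Fin r → ℕ}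
  [NeZero (wilesLevel p t Smin (Smin ∪ Finset.univ.image qv))]
  (PQ : HeckePkg p 𝒪 ρbar t Smin (Smin ∪ Finset.univ.image qv))
  (V : Submodule 𝒪 (XQ p t Smin qv 𝒪)) (h : ℕ) (a : PQ.T →ₐ[𝒪] Module.End 𝒪 V)

include hpF in
/-- Every `s ∈ T_Q` acts on `V` as a word in the `⟨ℓ⟩^h T_ℓ`, `ℓ ∤ M_Q`. -/
theorem exists_word_h762 (hS : ∀ q ∈ Smin, q.Prime) (hpS : p ∈ Smin)
    (hprime : ∀ j, (qv j).Prime) (ha : IsQAction PQ V h a) (s : PQ.T) :
    ∃ w : FreeAlgebra 𝒪 (GoodL (bLevel (wilesLevel p t Smin Smin) qv)), ∀ v : V,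
      ((a s v : V) : XQ p t Smin qv 𝒪) =
        FreeAlgebra.lift 𝒪
          (tOpTwLin_h762 (isMid_KQ p (wilesLevel p t Smin Smin) qv) 𝒪 h) w
          (v : XQ p t Smin qv 𝒪) := by
  have hSig : ∀ q ∈ Smin ∪ Finset.univ.image qv, q.Prime := by
    intro q hq
    rcases Finset.mem_union.mp hq with h' | h'
    · exact hS q h'
    · obtain ⟨j, -, rfl⟩ := Finset.mem_image.mp h'
      exact hprime j
  refine pkg_induction PQ (fun q hq hqN => Finset.mem_coe.mpr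
    (mem_of_prime_dvd_wilesLevel hpF.out hS hSig hpS Finset.subset_union_left q hq hqN))
    (fun s => ∃ w : FreeAlgebra 𝒪 (GoodL (bLevel (wilesLevel p t Smin Smin) qv)), ∀ v : V,
      ((a s v : V) : XQ p t Smin qv 𝒪) =
        FreeAlgebra.lift 𝒪
          (tOpTwLin_h762 (isMid_KQ p (wilesLevel p t Smin Smin) qv) 𝒪 h) w
          (v : XQ p t Smin qv 𝒪)) ?_ ?_ ?_ ?_ s
  · intro c
    refine ⟨algebraMap 𝒪 _ c, fun v => ?_⟩
    rw [AlgHom.commutes, AlgHom.commutes, Module.algebraMap_end_apply,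
      Module.algebraMap_end_apply]
    rfl
  · rintro x y ⟨w₁, h₁⟩ ⟨w₂, h₂⟩
    refine ⟨w₁ + w₂, fun v => ?_⟩
    rw [map_add, map_add, LinearMap.add_apply, LinearMap.add_apply, Submodule.coe_add, h₁, h₂]
  · rintro x y ⟨w₁, h₁⟩ ⟨w₂, h₂⟩
    refine ⟨w₁ * w₂, fun v => ?_⟩
    rw [map_mul, map_mul, Module.End.mul_apply, Module.End.mul_apply, h₁, h₂]
  · intro ℓ hℓ hℓN hℓS
    refine ⟨FreeAlgebra.ι 𝒪 ⟨ℓ, hℓ, not_dvd_bLevel hℓ hprime hℓN hℓS⟩, fun v => ?_⟩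
    rw [FreeAlgebra.lift_ι_apply]
    exact ha ℓ hℓ hℓN hℓS v

include hpF in
/-- **The `K_j`-descent of a vector fixed by `⟨u⟩_j`** (context of `H314.DictTStatement`). -/
theorem desc_dictT_h762 [CharZero 𝒪] (hS : ∀ q ∈ Smin, q.Prime) (hpS : p ∈ Smin)
    (hprime : ∀ j, (qv j).Prime) (hinj : Function.Injective qv)
    (ha : IsQAction PQ V h a) (j : Fin r) (u : (ZMod (qv j))ˣ) (hu : orderOf u = qv j - 1)
    (y : V) (hfix : diaQ p t Smin qv 𝒪 (Pi.mulSingle j u) (y : XQ p t Smin qv 𝒪) = y) :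
    ∃ z : Additive (KJ p (wilesLevel p t Smin Smin) qv j) →+ 𝒪,
      z = coresK (KQ_le_KJ p (wilesLevel p t Smin Smin) qv j) (y : XQ p t Smin qv 𝒪) ∧
      resK (KQ_le_KJ p (wilesLevel p t Smin Smin) qv j) z =
        nJ p (wilesLevel p t Smin Smin) qv j • (y : XQ p t Smin qv 𝒪) ∧
      nJ p (wilesLevel p t Smin Smin) qv j ≠ 0 ∧
      (y ≠ 0 → z ≠ 0) ∧
      (IsCuspidalK (y : XQ p t Smin qv 𝒪) → IsCuspidalK z) ∧
      ∀ s : PQ.T, ∃ w : FreeAlgebra 𝒪 (GoodL (bLevel (wilesLevel p t Smin Smin) qv)),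
        (∀ v : V, ((a s v : V) : XQ p t Smin qv 𝒪) =
          FreeAlgebra.lift 𝒪
            (tOpTwLin_h762 (isMid_KQ p (wilesLevel p t Smin Smin) qv) 𝒪 h) w
            (v : XQ p t Smin qv 𝒪)) ∧
        (a s y = 0 ↔
          FreeAlgebra.lift 𝒪
            (tOpTwLin_h762 (isMid_KJ p (wilesLevel p t Smin Smin) qv j) 𝒪 h) w z = 0) := by
  refine ⟨_, rfl, ?_, nJ_ne_zero p _ qv hprime j, ?_, ?_, ?_⟩
  · exact resK_coresK_j_h762 p (wilesLevel p t Smin Smin) qv hprime hinj j u hu _ hfix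
  · intro hy
    refine coresK_j_ne_zero_h762 p (wilesLevel p t Smin Smin) qv hprime hinj 𝒪 j u hu _ hfix ?_
    intro h0
    exact hy (Subtype.ext h0)
  · intro hc
    exact isCuspidalK_coresK _ hc
  · intro s
    obtain ⟨w, hw⟩ := exists_word_h762 PQ V h a hS hpS hprime ha s
    refine ⟨w, hw, ?_⟩
    rw [← ann_coresK_j_h762 p (wilesLevel p t Smin Smin) qv hprime hinj 𝒪 j h u hu _ hfix w,
      ← hw y]
    constructor
    · intro h1
      rw [h1]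
      rfl
    · intro h1
      exact Subtype.ext h1

end Word

end Fermat.Agent.S59.TW.Aut.H762
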